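import Fermat.Agent.BombieriVinogradov.LargeSieve
import Fermat.Agent.Root.SummaryPolyaVinogradov
import Mathlib.NumberTheory.DirichletCharacter.GaussSum
import Mathlib.NumberTheory.DirichletCharacter.Orthogonality

/-!
# The large sieve for characters

`∑_{q ≤ Q} q / φ q ∑* |∑ a n χ n|²` is bounded like the large sieve, and so is the bilinear form
`∑_{q ≤ Q} q / φ q ∑* |∑_{m n ≤ x} a m b n χ (m n)|`, the condition `m n ≤ x` being separated
exactly by the points `h / M`.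
-/

set_option autoImplicit false

noncomputable section

namespace FA.BombieriVinogradov

open Finset Complex
open FA.ThreePrimes (eAdd nearDist clip arcCentres centre unitResidues)
open scoped Real ComplexConjugate

open scoped Classical in
/-- The primitive characters modulo `q`. -/
def primChars (q : ℕ) : Finset (DirichletCharacter ℂ q) :=
  if h : q = 0 then ∅ else
    haveI : NeZero q := ⟨h⟩
    univ.filter fun χ => χ.IsPrimitive

theorem mem_primChars {q : ℕ} [NeZero q] {χ : DirichletCharacter ℂ q} :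
    χ ∈ primChars q ↔ χ.IsPrimitive := by
  classical
  simp [primChars, NeZero.ne q]

theorem norm_gauss {q : ℕ} [NeZero q] {χ : DirichletCharacter ℂ q} (hχ : χ.IsPrimitive) :
    ‖gaussSum χ ZMod.stdAddChar‖ = √(q : ℝ) := by
  rcases (Nat.one_le_iff_ne_zero.2 (NeZero.ne q)).eq_or_lt with h | h
  · subst h
    have e : ∀ r : ZMod 1, r = 1 := fun r => Subsingleton.elim r 1
    rw [gaussSum, Fintype.sum_eq_single (1 : ZMod 1) fun b hb => absurd (e b) hb, norm_mul,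
      map_one, ZMod.stdAddChar_apply, Circle.norm_coe]
    simp
  · exact OrderTheta.norm_gaussSum_primitive h hχ

theorem stdAddChar_natCast_mul {q : ℕ} [NeZero q] (r n : ℕ) :
    ZMod.stdAddChar ((r : ZMod q) * (n : ZMod q)) = eAdd (n * ((r : ℝ) / q)) := by
  rw [← Nat.cast_mul, ← Int.cast_natCast, ZMod.stdAddChar_coe, eAdd]
  congr 1
  push_cast
  ring

/-- **One modulus**: orthogonality and Gauss sums. -/
theorem sum_primChars_le {q : ℕ} [NeZero q] (S : Finset ℕ) (a : ℕ → ℂ) :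
    (q : ℝ) * ∑ χ ∈ primChars q, ‖∑ n ∈ S, a n * χ n‖ ^ 2 ≤
      q.totient * ∑ r ∈ unitResidues q, ‖∑ n ∈ S, a n * eAdd (n * ((r : ℝ) / q))‖ ^ 2 := by
  classical
  obtain ⟨T, hT⟩ : ∃ T : ZMod q → ℂ,
      T = fun r => ∑ n ∈ S, a n * ZMod.stdAddChar (r * (n : ZMod q)) := ⟨_, rfl⟩
  have hkey : ∀ χ ∈ primChars q, (q : ℝ) * ‖∑ n ∈ S, a n * χ n‖ ^ 2 =
      ‖∑ r : ZMod q, χ⁻¹ r * T r‖ ^ 2 := by
    intro χ hχ
    rw [mem_primChars] at hχ
    have hχ' : χ⁻¹.IsPrimitive := (DirichletCharacter.conductor_inv χ).trans hχ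
    have e : ∑ r : ZMod q, χ⁻¹ r * T r =
        gaussSum χ⁻¹ ZMod.stdAddChar * ∑ n ∈ S, a n * χ n := by
      rw [hT, mul_sum]
      simp only [mul_sum]
      rw [sum_comm]
      refine sum_congr rfl fun n _ => ?_
      have h := gaussSum_mulShift_of_isPrimitive (e := ZMod.stdAddChar) hχ' (n : ZMod q)
      rw [inv_inv, gaussSum] at h
      rw [mul_comm (a n), ← mul_assoc, mul_comm (gaussSum _ _), ← h, sum_mul]
      refine sum_congr rfl fun r _ => ?_
      rw [AddChar.mulShift_apply, mul_comm (n : ZMod q) r]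
      ring
    rw [e, norm_mul, norm_gauss hχ', mul_pow, Real.sq_sqrt (Nat.cast_nonneg q)]
  have horth : ((∑ χ : DirichletCharacter ℂ q, ‖∑ r : ZMod q, χ⁻¹ r * T r‖ ^ 2 : ℝ) : ℂ) =
      ((q.totient * ∑ r ∈ (univ : Finset (ZMod q)).filter IsUnit, ‖T r‖ ^ 2 : ℝ) : ℂ) := by
    rw [Complex.ofReal_sum, Complex.ofReal_mul, Complex.ofReal_sum, Complex.ofReal_natCast,
      mul_sum, sum_filter]
    trans ∑ r : ZMod q, ∑ s : ZMod q, T r * conj (T s) *
      ∑ χ : DirichletCharacter ℂ q, χ⁻¹ r * χ s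
    · simp only [mul_sum]
      conv_rhs => arg 2; ext r; rw [sum_comm]
      rw [sum_comm (s := (univ : Finset (ZMod q)))]
      refine sum_congr rfl fun χ _ => ?_
      rw [Complex.ofReal_pow, ← Complex.mul_conj', map_sum, sum_mul_sum]
      refine sum_congr rfl fun r _ => sum_congr rfl fun s _ => ?_
      rw [map_mul, show conj (χ⁻¹ s) = χ s from (MulChar.star_apply' χ⁻¹ s).trans (by rw [inv_inv])]
      ring
    refine sum_congr rfl fun r _ => ?_
    by_cases hr : IsUnit r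
    · rw [if_pos hr, sum_eq_single r]
      · have e : ∀ χ : DirichletCharacter ℂ q, χ⁻¹ r = χ r⁻¹ := fun χ => by
          obtain ⟨u, rfl⟩ := hr
          rw [MulChar.inv_apply, Ring.inverse_unit, ← ZMod.inv_coe_unit]
        simp only [e]
        rw [DirichletCharacter.sum_char_inv_mul_char_eq ℂ hr, if_pos rfl, Complex.mul_conj',
          Complex.ofReal_pow]
        ring
      · intro s _ hs
        have e : ∀ χ : DirichletCharacter ℂ q, χ⁻¹ r = χ r⁻¹ := fun χ => by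
          obtain ⟨u, rfl⟩ := hr
          rw [MulChar.inv_apply, Ring.inverse_unit, ← ZMod.inv_coe_unit]
        simp only [e]
        rw [DirichletCharacter.sum_char_inv_mul_char_eq ℂ hr, if_neg hs.symm, mul_zero]
      · simp
    · rw [if_neg hr]
      refine sum_eq_zero fun s _ => ?_
      rw [sum_eq_zero fun χ _ => by rw [MulChar.map_nonunit _ hr, zero_mul], mul_zero]
  have h1 : (q : ℝ) * ∑ χ ∈ primChars q, ‖∑ n ∈ S, a n * χ n‖ ^ 2 ≤
      q.totient * ∑ r ∈ (univ : Finset (ZMod q)).filter IsUnit, ‖T r‖ ^ 2 := by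
    rw [← Complex.ofReal_injective horth, mul_sum, sum_congr rfl hkey]
    exact sum_le_sum_of_subset_of_nonneg (subset_univ _) fun χ _ _ => sq_nonneg _
  refine h1.trans (le_of_eq ?_)
  congr 1
  symm
  refine sum_nbij' (fun r : ℕ => (r : ZMod q)) (fun r => r.val) ?_ ?_ ?_ ?_ ?_
  · intro r hr
    rw [unitResidues, mem_filter] at hr
    rw [mem_filter]
    exact ⟨mem_univ _, (ZMod.isUnit_iff_coprime r q).2 hr.2.symm⟩
  · intro r hr
    rw [mem_filter] at hr
    rw [unitResidues, mem_filter, mem_range]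
    refine ⟨ZMod.val_lt r, Nat.Coprime.symm ((ZMod.isUnit_iff_coprime r.val q).1 ?_)⟩
    rw [ZMod.natCast_zmod_val]
    exact hr.2
  · intro r hr
    rw [unitResidues, mem_filter, mem_range] at hr
    exact ZMod.val_cast_of_lt hr.1
  · exact fun r _ => ZMod.natCast_zmod_val r
  · intro r _
    rw [hT]
    simp only [stdAddChar_natCast_mul]

/-- **The large sieve for characters.** -/
theorem largeSieve_chars (Q M N : ℕ) (a : ℕ → ℂ) :
    ∑ q ∈ Icc 1 Q, (q : ℝ) / q.totient *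
      ∑ χ ∈ primChars q, ‖∑ n ∈ Ioc M (M + N), a n * χ n‖ ^ 2 ≤
        sieveConst N Q * ∑ n ∈ Ioc M (M + N), ‖a n‖ ^ 2 := by
  refine le_trans ?_ (largeSieve Q M N a)
  rw [arcCentres, sum_sigma]
  refine sum_le_sum fun q hq => ?_
  rw [mem_Icc] at hq
  have : NeZero q := ⟨by omega⟩
  rw [div_mul_eq_mul_div, div_le_iff₀ (Nat.cast_pos.2 (Nat.totient_pos.2 hq.1)), mul_comm _
    (q.totient : ℝ)]
  exact sum_primChars_le _ a

/-- The coefficient of `e (h m / M)` in the indicator of `m ≤ K`. -/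
def cutCoeff (M : ℕ) (h K : ℕ) : ℂ := ∑ k ∈ Ioc 0 K, eAdd (-(k * ((h : ℝ) / M)))

theorem norm_cutCoeff_le {M K : ℕ} (hK : K ≤ M) (h : ℕ) :
    ‖cutCoeff M h K‖ ≤ clip M ((h : ℝ) / M) := by
  rw [← ThreePrimes.clip_neg]
  refine le_trans (le_of_eq ?_) ((ThreePrimes.norm_geom_le _ 0 K).trans
    (ThreePrimes.clip_mono (by rw [Nat.sub_zero]; exact Nat.cast_le.2 hK) _))
  rw [cutCoeff]
  congr 1
  exact sum_congr rfl fun k _ => by ring_nf

/-- **The exact separation.** -/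
theorem sum_cut {M K m : ℕ} (hK : K ≤ M) (hm : m ∈ Ioc 0 M) :
    ∑ h ∈ range M, eAdd (m * ((h : ℝ) / M)) * cutCoeff M h K =
      if m ≤ K then (M : ℂ) else 0 := by
  rw [mem_Ioc] at hm
  simp only [cutCoeff, mul_sum, ← ThreePrimes.eAdd_add]
  rw [sum_comm]
  have e : ∀ k ∈ Ioc 0 K, ∑ h ∈ range M, eAdd (m * ((h : ℝ) / M) + -(k * ((h : ℝ) / M))) =
      if k = m then (M : ℂ) else 0 := by
    intro k hk
    rw [mem_Ioc] at hk
    rw [sum_congr rfl fun (h : ℕ) _ => show eAdd (m * ((h : ℝ) / M) + -(k * ((h : ℝ) / M))) =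
      eAdd ((((m : ℤ) - k : ℤ) : ℝ) * h / M) by push_cast; ring_nf,
      ThreePrimes.sum_eAdd_grid (by omega)]
    by_cases hkm : k = m
    · subst hkm
      simp
    · rw [if_neg hkm, if_neg]
      intro hd
      have := Int.le_of_dvd (abs_pos.2 (show ((m : ℤ) - k) ≠ 0 by omega)) ((dvd_abs _ _).2 hd)
      have : |((m : ℤ) - k)| < M := abs_lt.2 ⟨by omega, by omega⟩
      omega
  rw [sum_congr rfl e, sum_ite_eq']
  simp [mem_Ioc, hm.1]

/-- **The bilinear large sieve** with `m n ≤ x`. -/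
theorem largeSieve_bilinear (Q M N x : ℕ) (hM : 0 < M) (a b : ℕ → ℂ) :
    ∑ q ∈ Icc 1 Q, (q : ℝ) / q.totient * ∑ χ ∈ primChars q,
      ‖∑ m ∈ Ioc 0 M, ∑ n ∈ Ioc 0 N, if m * n ≤ x then a m * χ m * (b n * χ n) else 0‖ ≤
        7 * (1 + Real.log M) * (√(sieveConst M Q * ∑ m ∈ Ioc 0 M, ‖a m‖ ^ 2) *
          √(sieveConst N Q * ∑ n ∈ Ioc 0 N, ‖b n‖ ^ 2)) := by
  have : NeZero M := ⟨hM.ne'⟩
  have hM0 : (0 : ℝ) < M := Nat.cast_pos.2 hM
  obtain ⟨I, hI⟩ : ∃ I : Finset (Σ q : ℕ, DirichletCharacter ℂ q),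
      I = (Icc 1 Q).sigma primChars := ⟨_, rfl⟩
  obtain ⟨w, hw⟩ : ∃ w : (Σ q : ℕ, DirichletCharacter ℂ q) → ℝ,
      w = fun z => (z.1 : ℝ) / z.1.totient := ⟨_, rfl⟩
  have hw0 : ∀ z, 0 ≤ w z := fun z => by rw [hw]; positivity
  obtain ⟨A, hA⟩ : ∃ A : ℕ → (Σ q : ℕ, DirichletCharacter ℂ q) → ℂ,
      A = fun (h : ℕ) (z : Σ q : ℕ, DirichletCharacter ℂ q) =>
        ∑ m ∈ Ioc 0 M, a m * eAdd (m * ((h : ℝ) / M)) * z.2 m := ⟨_, rfl⟩
  obtain ⟨B, hB⟩ : ∃ B : ℕ → (Σ q : ℕ, DirichletCharacter ℂ q) → ℂ,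
      B = fun (h : ℕ) (z : Σ q : ℕ, DirichletCharacter ℂ q) =>
        ∑ n ∈ Ioc 0 N, b n * cutCoeff M h (min M (x / n)) * z.2 n := ⟨_, rfl⟩
  obtain ⟨P, hP⟩ : ∃ P, P = √(sieveConst M Q * ∑ m ∈ Ioc 0 M, ‖a m‖ ^ 2) *
      √(sieveConst N Q * ∑ n ∈ Ioc 0 N, ‖b n‖ ^ 2) := ⟨_, rfl⟩
  rw [← hP]
  have hone : ∀ h : ℕ, ∑ z ∈ I, w z * (‖A h z‖ * ‖B h z‖) ≤ clip M ((h : ℝ) / M) * P := by
    intro h
    have hc := ThreePrimes.clip_nonneg (Nat.cast_nonneg M) ((h : ℝ) / M)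
    have h1 : ∑ z ∈ I, w z * ‖A h z‖ ^ 2 ≤ sieveConst M Q * ∑ m ∈ Ioc 0 M, ‖a m‖ ^ 2 := by
      have := largeSieve_chars Q 0 M fun m => a m * eAdd (m * ((h : ℝ) / M))
      simp only [Nat.zero_add, norm_mul, ThreePrimes.norm_eAdd, mul_one] at this
      rw [hI, sum_sigma, hw, hA]
      simp only
      refine le_of_eq_of_le (sum_congr rfl fun q _ => ?_) this
      rw [mul_sum]
    have h2 : ∑ z ∈ I, w z * ‖B h z‖ ^ 2 ≤
        sieveConst N Q * ((∑ n ∈ Ioc 0 N, ‖b n‖ ^ 2) * clip M ((h : ℝ) / M) ^ 2) := by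
      have := largeSieve_chars Q 0 N fun n => b n * cutCoeff M h (min M (x / n))
      rw [Nat.zero_add] at this
      rw [hI, sum_sigma, hw, hB]
      simp only
      refine (le_of_eq_of_le (sum_congr rfl fun q _ => (mul_sum _ _ _).symm) this).trans ?_
      refine mul_le_mul_of_nonneg_left ?_ (sieveConst_nonneg N Q)
      rw [sum_mul]
      refine sum_le_sum fun n _ => ?_
      rw [norm_mul, mul_pow]
      exact mul_le_mul_of_nonneg_left (pow_le_pow_left₀ (norm_nonneg _)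
        (norm_cutCoeff_le (min_le_left _ _) h) 2) (sq_nonneg _)
    have h3 := Real.sum_sqrt_mul_sqrt_le I (f := fun z => w z * ‖A h z‖ ^ 2)
      (g := fun z => w z * ‖B h z‖ ^ 2) (fun z => mul_nonneg (hw0 z) (sq_nonneg _))
      (fun z => mul_nonneg (hw0 z) (sq_nonneg _))
    refine le_trans (le_of_eq (sum_congr rfl fun z _ => ?_)) (h3.trans ((mul_le_mul
      (Real.sqrt_le_sqrt h1) (Real.sqrt_le_sqrt h2) (Real.sqrt_nonneg _)
      (Real.sqrt_nonneg _)).trans (le_of_eq ?_)))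
    · rw [Real.sqrt_mul (hw0 z), Real.sqrt_mul (hw0 z), Real.sqrt_sq (norm_nonneg _),
        Real.sqrt_sq (norm_nonneg _)]
      rw [show √(w z) * ‖A h z‖ * (√(w z) * ‖B h z‖) = √(w z) * √(w z) * (‖A h z‖ * ‖B h z‖) by
        ring, Real.mul_self_sqrt (hw0 z)]
    · rw [hP, ← mul_assoc (sieveConst N Q), Real.sqrt_mul (mul_nonneg (sieveConst_nonneg N Q)
        (sum_nonneg fun n _ => sq_nonneg _)), Real.sqrt_sq hc]
      ring
  have hsplit : ∀ z ∈ I, ‖∑ m ∈ Ioc 0 M, ∑ n ∈ Ioc 0 N,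
      if m * n ≤ x then a m * z.2 m * (b n * z.2 n) else 0‖ ≤
        (∑ h ∈ range M, ‖A h z‖ * ‖B h z‖) / M := by
    intro z _
    rw [le_div_iff₀ hM0, ← Complex.norm_natCast M, ← norm_mul, sum_mul]
    refine le_trans (le_of_eq ?_) ((norm_sum_le _ fun h => A h z * B h z).trans
      (le_of_eq (sum_congr rfl fun h _ => norm_mul _ _)))
    congr 1
    rw [hA, hB]
    simp only [sum_mul_sum]
    rw [sum_comm (s := range M)]
    refine sum_congr rfl fun m hm => ?_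
    rw [sum_comm (s := range M), sum_mul]
    refine sum_congr rfl fun n hn => ?_
    rw [sum_congr rfl fun (h : ℕ) _ => show a m * eAdd (m * ((h : ℝ) / M)) * z.2 m *
        (b n * cutCoeff M h (min M (x / n)) * z.2 n) = a m * z.2 m * (b n * z.2 n) *
          (eAdd (m * ((h : ℝ) / M)) * cutCoeff M h (min M (x / n))) by ring,
      ← mul_sum, sum_cut (min_le_left _ _) hm]
    rw [mem_Ioc] at hm hn
    have hiff : m * n ≤ x ↔ m ≤ min M (x / n) := by
      rw [le_min_iff, Nat.le_div_iff_mul_le hn.1]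
      exact ⟨fun h => ⟨hm.2, h⟩, fun h => h.2⟩
    by_cases h : m * n ≤ x
    · rw [if_pos h, if_pos (hiff.1 h)]
    · rw [if_neg h, if_neg fun h' => h (hiff.2 h'), zero_mul, mul_zero]
  have hclip : ∑ h ∈ range M, clip M ((h : ℝ) / M) ≤ 7 * M * (1 + Real.log M) := by
    refine le_of_eq_of_le (sum_congr rfl fun h _ => by rw [sub_zero])
      ((ThreePrimes.sum_clip_grid_le (M := M) 0 hM0.le).trans ?_)
    have := mul_le_mul_of_nonneg_left
      (show (1 : ℝ) ≤ 1 + Real.log M by linarith [Real.log_natCast_nonneg M])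
      (show (0 : ℝ) ≤ 5 * M by positivity)
    linarith
  calc _ = ∑ z ∈ I, w z * ‖∑ m ∈ Ioc 0 M, ∑ n ∈ Ioc 0 N,
        if m * n ≤ x then a m * z.2 m * (b n * z.2 n) else 0‖ := by
        rw [hI, sum_sigma, hw]
        simp only [mul_sum]
    _ ≤ ∑ z ∈ I, w z * ((∑ h ∈ range M, ‖A h z‖ * ‖B h z‖) / M) :=
        sum_le_sum fun z hz => mul_le_mul_of_nonneg_left (hsplit z hz) (hw0 z)
    _ = (∑ h ∈ range M, ∑ z ∈ I, w z * (‖A h z‖ * ‖B h z‖)) / M := by
        rw [sum_comm, sum_div]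
        exact sum_congr rfl fun z _ => by rw [← mul_sum, mul_div_assoc]
    _ ≤ 7 * M * (1 + Real.log M) * P / M := by
        refine div_le_div_of_nonneg_right ((sum_le_sum fun h _ => hone h).trans ?_) hM0.le
        rw [← sum_mul]
        exact mul_le_mul_of_nonneg_right hclip (hP ▸ by positivity)
    _ = _ := by field_simp

end FA.BombieriVinogradov
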