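import Fermat.Agent.ThreePrimes.Circle

/-!
# The large sieve inequality

`∑_{q ≤ Q} ∑_{(r, q) = 1} |S (r / q)|² ≤ (2 N + 2 Q² (1 + log (Q² + 1))) ∑ |a n|²` for
`S x = ∑_{M < n ≤ M + N} a n e (n x)`, by duality and the spacing `1 / Q²` of the fractions.
-/

set_option autoImplicit false

noncomputable section

namespace FA.BombieriVinogradov

open Finset Complex
open FA.ThreePrimes (eAdd nearDist clip arcCentres centre)
open scoped Real ComplexConjugate

/-- The constant of the large sieve. -/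
def sieveConst (N Q : ℕ) : ℝ :=
  2 * N + 2 * ((Q : ℝ) * Q) * (1 + Real.log ((Q * Q + 1 : ℕ) : ℝ))

theorem sieveConst_nonneg (N Q : ℕ) : 0 ≤ sieveConst N Q := by
  unfold sieveConst
  positivity [Real.log_natCast_nonneg (Q * Q + 1)]

/-- **Spaced points.** -/
theorem sum_clip_centre_le {Q : ℕ} {z : Σ _ : ℕ, ℕ} (N : ℕ) :
    ∑ w ∈ arcCentres Q, clip N (centre w - centre z) ≤ sieveConst N Q := by
  classical
  obtain ⟨D, hD⟩ : ∃ D : ℕ, D = Q * Q := ⟨_, rfl⟩
  rcases Nat.eq_zero_or_pos D with hD0 | hD0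
  · obtain rfl : Q = 0 := by
      rw [hD, mul_self_eq_zero] at hD0
      exact hD0
    refine le_of_eq_of_le (sum_eq_zero fun w hw => ?_) (sieveConst_nonneg _ _)
    rw [ThreePrimes.mem_arcCentres] at hw
    omega
  have hDr : (0 : ℝ) < D := Nat.cast_pos.2 hD0
  obtain ⟨t, ht⟩ : ∃ t : (Σ _ : ℕ, ℕ) → ℝ,
      t = fun w => centre w - centre z - round (centre w - centre z) := ⟨_, rfl⟩
  obtain ⟨j, hj⟩ : ∃ j : (Σ _ : ℕ, ℕ) → ℤ, j = fun w => ⌊t w * D⌋ := ⟨_, rfl⟩
  obtain ⟨g, hg⟩ : ∃ g : ℤ → ℝ, g = fun i => (if i = 0 ∨ i = -1 then (N : ℝ) else 0) +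
      (D : ℝ) / 2 * ((i.natAbs : ℝ)⁻¹ + ((i + 1).natAbs : ℝ)⁻¹) := ⟨_, rfl⟩
  have habs : ∀ w, |t w| = nearDist (centre w - centre z) := fun w => by rw [ht, nearDist]
  have hinj : Set.InjOn j (arcCentres Q : Finset _) := by
    intro w hw v hv h
    by_contra hne
    rw [hj] at h
    have h1 := Int.abs_sub_lt_one_of_floor_eq_floor h
    have h2 := ThreePrimes.inv_mul_le_nearDist_centre hw hv hne
    have h3 : nearDist (centre w - centre v) ≤ |t w - t v| := by
      refine (ThreePrimes.nearDist_le_abs_sub _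
        (round (centre w - centre z) - round (centre v - centre z))).trans (le_of_eq ?_)
      rw [ht]
      push_cast
      ring_nf
    have h4 := mul_le_mul_of_nonneg_right (h2.trans h3) hDr.le
    have h5 : (Q : ℝ) * Q = D := by rw [hD]; push_cast; ring
    rw [h5, one_div_mul_cancel hDr.ne'] at h4
    rw [← sub_mul, abs_mul, abs_of_pos hDr] at h1
    linarith
  have hpt : ∀ w ∈ arcCentres Q, clip N (centre w - centre z) ≤ g (j w) := by
    intro w _
    have hfl := Int.floor_le (t w * D)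
    have hfl' := Int.lt_floor_add_one (t w * D)
    rw [show ⌊t w * D⌋ = j w by rw [hj]] at hfl hfl'
    rw [hg]
    simp only
    rcases eq_or_ne (j w) 0 with h0 | h0
    · rw [if_pos (Or.inl h0)]
      exact (ThreePrimes.clip_le _ _).trans (le_add_of_nonneg_right (by positivity))
    rcases eq_or_ne (j w) (-1) with h1 | h1
    · rw [if_pos (Or.inr h1)]
      exact (ThreePrimes.clip_le _ _).trans (le_add_of_nonneg_right (by positivity))
    rw [if_neg (by tauto), zero_add]
    rcases lt_or_ge (j w) 0 with hlt | hge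
    · have h2 : ((j w + 1).natAbs : ℝ) = -((j w : ℝ) + 1) := by
        rw [Nat.cast_natAbs, Int.cast_abs, Int.cast_add, Int.cast_one, abs_of_neg]
        exact_mod_cast (show j w + 1 < 0 by omega)
      have h3 : (0 : ℝ) < ((j w + 1).natAbs : ℝ) := Nat.cast_pos.2 (by omega)
      refine (ThreePrimes.clip_le_inv (δ := ((j w + 1).natAbs : ℝ) / D) (by positivity) ?_).trans ?_
      · rw [← habs, div_le_iff₀ hDr, h2]
        have := mul_le_mul_of_nonneg_right (neg_abs_le (t w)) hDr.le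
        linarith
      · calc 1 / (2 * (((j w + 1).natAbs : ℝ) / D)) = (D : ℝ) / 2 * ((j w + 1).natAbs : ℝ)⁻¹ := by
              field_simp
          _ ≤ _ := mul_le_mul_of_nonneg_left (le_add_of_nonneg_left (by positivity))
              (by positivity)
    · have h2 : ((j w).natAbs : ℝ) = (j w : ℝ) := by
        rw [Nat.cast_natAbs, Int.cast_abs, abs_of_nonneg]
        exact_mod_cast hge
      have h3 : (0 : ℝ) < ((j w).natAbs : ℝ) := Nat.cast_pos.2 (by omega)
      refine (ThreePrimes.clip_le_inv (δ := ((j w).natAbs : ℝ) / D) (by positivity) ?_).trans ?_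
      · rw [← habs, div_le_iff₀ hDr, h2]
        have := mul_le_mul_of_nonneg_right (le_abs_self (t w)) hDr.le
        linarith
      · calc 1 / (2 * (((j w).natAbs : ℝ) / D)) = (D : ℝ) / 2 * ((j w).natAbs : ℝ)⁻¹ := by
              field_simp
          _ ≤ _ := mul_le_mul_of_nonneg_left (le_add_of_nonneg_right (by positivity))
              (by positivity)
  refine (sum_le_sum hpt).trans ?_
  rw [← sum_image (g := j) hinj]
  refine (sum_le_sum_of_subset_of_nonneg (t := Icc (-(D : ℤ)) D) ?_ fun i _ _ => ?_).trans ?_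
  · intro i hi
    obtain ⟨w, -, rfl⟩ := mem_image.1 hi
    have h1 : |t w| ≤ 1 / 2 := by
      rw [ht]
      exact abs_sub_round _
    have h2 := abs_le.1 h1
    have h3 := mul_le_mul_of_nonneg_right h2.1 hDr.le
    have h4 := mul_le_mul_of_nonneg_right h2.2 hDr.le
    rw [hj, mem_Icc]
    constructor
    · refine Int.le_floor.2 ?_
      push_cast
      linarith
    · refine Int.le_of_lt_add_one (Int.floor_lt.2 ?_)
      push_cast
      linarith
  · rw [hg]
    positivity
  rw [hg, sum_add_distrib, ← sum_filter, sum_const, nsmul_eq_mul, ← mul_sum, sum_add_distrib,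
    sieveConst]
  have e1 := ThreePrimes.sum_inv_natAbs_le D
  have e2 : ∑ i ∈ Icc (-(D : ℤ)) D, (((i + 1).natAbs : ℝ))⁻¹ ≤
      2 * (1 + Real.log ((D + 1 : ℕ) : ℝ)) := by
    refine le_trans ?_ (ThreePrimes.sum_inv_natAbs_le (D + 1))
    rw [← sum_image (g := fun i : ℤ => i + 1) (f := fun i : ℤ => ((i.natAbs : ℝ))⁻¹)
      fun x _ y _ h => by simpa using h]
    refine sum_le_sum_of_subset_of_nonneg (fun i hi => ?_) fun i _ _ => by positivity
    obtain ⟨k, hk, rfl⟩ := mem_image.1 hi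
    rw [mem_Icc] at hk ⊢
    push_cast
    omega
  have e3 : Real.log (D : ℝ) ≤ Real.log ((D + 1 : ℕ) : ℝ) :=
    Real.log_le_log hDr (by push_cast; linarith)
  have e4 : (((Icc (-(D : ℤ)) D).filter fun i : ℤ => i = 0 ∨ i = -1).card : ℝ) ≤ 2 := by
    refine le_trans (Nat.cast_le.2 (card_le_card (t := {(0 : ℤ), -1}) fun i hi => ?_)) ?_
    · rw [mem_filter] at hi
      rw [mem_insert, mem_singleton]
      exact hi.2
    · exact_mod_cast card_le_two
  have e5 := mul_le_mul_of_nonneg_right e4 (Nat.cast_nonneg (α := ℝ) N)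
  have e6 := mul_le_mul_of_nonneg_left (add_le_add e1 e2) (show (0 : ℝ) ≤ (D : ℝ) / 2 by positivity)
  have e7 := mul_le_mul_of_nonneg_left e3 hDr.le
  have h5 : (Q : ℝ) * Q = D := by rw [hD]; push_cast; ring
  rw [h5, ← hD]
  linarith

/-- **The large sieve inequality.** -/
theorem largeSieve (Q M N : ℕ) (a : ℕ → ℂ) :
    ∑ z ∈ arcCentres Q, ‖∑ n ∈ Ioc M (M + N), a n * eAdd (n * centre z)‖ ^ 2 ≤
      sieveConst N Q * ∑ n ∈ Ioc M (M + N), ‖a n‖ ^ 2 := by
  obtain ⟨S, hS⟩ : ∃ S : (Σ _ : ℕ, ℕ) → ℂ,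
      S = fun z => ∑ n ∈ Ioc M (M + N), a n * eAdd (n * centre z) := ⟨_, rfl⟩
  obtain ⟨V, hV⟩ : ∃ V : ℕ → ℂ,
      V = fun n : ℕ => ∑ z ∈ arcCentres Q, conj (S z) * eAdd (n * centre z) := ⟨_, rfl⟩
  obtain ⟨T, hT⟩ : ∃ T, T = ∑ z ∈ arcCentres Q, ‖S z‖ ^ 2 := ⟨_, rfl⟩
  rw [show ∑ z ∈ arcCentres Q, ‖∑ n ∈ Ioc M (M + N), a n * eAdd (n * centre z)‖ ^ 2 = T by
    rw [hT, hS]]
  have hT0 : 0 ≤ T := hT ▸ sum_nonneg fun z _ => sq_nonneg _
  have hswap : (T : ℂ) = ∑ n ∈ Ioc M (M + N), a n * V n := by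
    rw [hT, Complex.ofReal_sum, hV]
    simp only [mul_sum]
    rw [sum_comm]
    refine sum_congr rfl fun z _ => ?_
    rw [Complex.ofReal_pow, ← Complex.conj_mul']
    nth_rewrite 2 [hS]
    rw [mul_sum]
    exact sum_congr rfl fun n _ => by ring
  have hdual : ∑ n ∈ Ioc M (M + N), ‖V n‖ ^ 2 ≤ sieveConst N Q * T := by
    have e : ((∑ n ∈ Ioc M (M + N), ‖V n‖ ^ 2 : ℝ) : ℂ) = ∑ z ∈ arcCentres Q,
        ∑ w ∈ arcCentres Q, conj (S z) * S w *
          ∑ n ∈ Ioc M (M + N), eAdd (n * (centre z - centre w)) := by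
      rw [Complex.ofReal_sum, hV]
      simp only [mul_sum]
      conv_rhs => arg 2; ext z; rw [sum_comm]
      rw [sum_comm (s := arcCentres Q)]
      refine sum_congr rfl fun n _ => ?_
      rw [Complex.ofReal_pow, ← Complex.mul_conj', map_sum, sum_mul_sum]
      refine sum_congr rfl fun z _ => sum_congr rfl fun w _ => ?_
      rw [map_mul, Complex.conj_conj, ThreePrimes.conj_eAdd, mul_sub, sub_eq_add_neg,
        ThreePrimes.eAdd_add]
      ring
    have hb : ∀ z ∈ arcCentres Q, ∀ w ∈ arcCentres Q, ‖conj (S z) * S w *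
        ∑ n ∈ Ioc M (M + N), eAdd (n * (centre z - centre w))‖ ≤
          ‖S z‖ ^ 2 / 2 * clip N (centre z - centre w) +
            ‖S w‖ ^ 2 / 2 * clip N (centre z - centre w) := by
      intro z _ w _
      rw [norm_mul, norm_mul, RCLike.norm_conj, ← add_mul]
      refine mul_le_mul ?_ ((ThreePrimes.norm_geom_le _ _ _).trans_eq (by simp)) (norm_nonneg _)
        (by positivity)
      nlinarith [sq_nonneg (‖S z‖ - ‖S w‖)]
    have h0 : 0 ≤ ∑ n ∈ Ioc M (M + N), ‖V n‖ ^ 2 := sum_nonneg fun n _ => sq_nonneg _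
    rw [← abs_of_nonneg h0, ← Real.norm_eq_abs, ← Complex.norm_real, e]
    refine (norm_sum_le _ _).trans ((sum_le_sum fun z hz => (norm_sum_le _ _).trans
      (sum_le_sum (hb z hz))).trans ?_)
    simp only [sum_add_distrib]
    rw [sum_comm (f := fun z w => ‖S w‖ ^ 2 / 2 * clip N (centre z - centre w))]
    simp only [← mul_sum]
    have hrow : ∀ z : Σ _ : ℕ, ℕ, ∑ w ∈ arcCentres Q, clip N (centre z - centre w) ≤
        sieveConst N Q := fun z => by
      refine le_of_eq_of_le (sum_congr rfl fun w _ => ?_) (sum_clip_centre_le (z := z) N)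
      rw [← ThreePrimes.clip_neg, neg_sub]
    refine (add_le_add (sum_le_sum fun z _ => mul_le_mul_of_nonneg_left (hrow z) (by positivity))
      (sum_le_sum fun w _ => mul_le_mul_of_nonneg_left (sum_clip_centre_le (z := w) N)
        (by positivity))).trans (le_of_eq ?_)
    rw [hT, mul_sum, ← sum_add_distrib]
    exact sum_congr rfl fun z _ => by ring
  obtain ⟨A, hA⟩ : ∃ A, A = ∑ n ∈ Ioc M (M + N), ‖a n‖ ^ 2 := ⟨_, rfl⟩
  rw [← hA]
  have hsq : T ^ 2 ≤ sieveConst N Q * A * T := by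
    have h1 : T ≤ ∑ n ∈ Ioc M (M + N), ‖a n‖ * ‖V n‖ := by
      rw [← abs_of_nonneg hT0, ← Real.norm_eq_abs, ← Complex.norm_real, hswap]
      exact (norm_sum_le _ _).trans (le_of_eq (sum_congr rfl fun n _ => norm_mul _ _))
    refine (pow_le_pow_left₀ hT0 h1 2).trans ((sum_mul_sq_le_sq_mul_sq _ _ _).trans ?_)
    rw [← hA, mul_comm (sieveConst N Q) A, mul_assoc]
    exact mul_le_mul_of_nonneg_left hdual (hA ▸ sum_nonneg fun n _ => sq_nonneg _)
  rcases hT0.eq_or_lt with h | h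
  · rw [← h]
    exact mul_nonneg (sieveConst_nonneg N Q) (hA ▸ sum_nonneg fun n _ => sq_nonneg _)
  · rw [sq] at hsq
    exact le_of_mul_le_mul_right hsq h

end FA.BombieriVinogradov
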