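import Fermat.Agent.BombieriVinogradov.Reduce
import Fermat.Agent.Root.SummarySiegelWalfisz

/-!
# The theorem of Bombieri and Vinogradov

Small conductors come from the theorem of Siegel and Walfisz, the others from the mean value in
dyadic ranges; the maximum over `y ≤ x` comes from monotonicity on a grid of `(log x) ^ (A + 2)`
points.
-/

set_option autoImplicit false

noncomputable section

namespace FA.BombieriVinogradov

open Finset ArithmeticFunction Filter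
open FA.ThreePrimes (logOne)
open scoped Real Topology

/-- Powers of `log x` against powers of `x`. -/
theorem eventually_log_pow_le (n : ℕ) {s : ℝ} (hs : 0 < s) :
    ∀ᶠ x : ℕ in atTop, Real.log x ^ n ≤ (x : ℝ) ^ s := by
  have h := (isLittleO_log_rpow_rpow_atTop (n : ℝ) hs).bound one_pos
  refine ((tendsto_natCast_atTop_atTop (R := ℝ)).eventually h).mono fun x hx => ?_
  rwa [one_mul, Real.rpow_natCast, Real.norm_eq_abs, Real.norm_eq_abs,
    abs_of_nonneg (pow_nonneg (Real.log_natCast_nonneg x) n),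
    abs_of_nonneg (Real.rpow_nonneg (Nat.cast_nonneg x) s)] at hx

theorem eventually_log_ge (c : ℝ) : ∀ᶠ x : ℕ in atTop, c ≤ Real.log x :=
  (Real.tendsto_log_atTop.comp tendsto_natCast_atTop_atTop).eventually_ge_atTop c

/-- **Small conductors**, from the theorem of Siegel and Walfisz. -/
theorem exists_small_le (k m : ℕ) : ∃ C : ℝ, 0 < C ∧ ∀ y : ℕ, 3 ≤ y →
    |∑ n ∈ Ioc 0 y, Λ n - y| ≤ C * y / Real.log y ^ m ∧
    ∀ d : ℕ, 2 ≤ d → (d : ℝ) ≤ Real.log y ^ (k + 1) → ∀ χ ∈ primChars d,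
      ‖charSum χ Λ y‖ ≤ d * (C * y / Real.log y ^ m) := by
  classical
  obtain ⟨C, hC, h⟩ := SiegelWalfisz.Summary.siegel_walfisz_log ((k + 1 : ℕ) : ℝ) ((m + 1 : ℕ) : ℝ)
    (by positivity) (by positivity)
  refine ⟨C, hC, fun y hy => ?_⟩
  have hy2 : (2 : ℝ) ≤ y := by exact_mod_cast (show 2 ≤ y by omega)
  have hl : 1 ≤ Real.log y := by
    rw [Real.le_log_iff_exp_le (by linarith)]
    have : (3 : ℝ) ≤ y := by exact_mod_cast hy
    linarith [Real.exp_one_lt_d9]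
  have key : ∀ (d : ℕ) [NeZero d] (r : ZMod d), IsUnit r → (d : ℝ) ≤ Real.log y ^ (k + 1) →
      |∑ n ∈ (Icc 1 y).filter (fun n : ℕ => (n : ZMod d) = r), Λ n - y / d.totient| ≤
        C * y / Real.log y ^ m := by
    intro d _ r hr hd
    have h1 := h d r hr y hy2 (by rwa [Real.rpow_natCast])
    rw [Nat.floor_natCast, Real.rpow_natCast] at h1
    refine h1.trans (div_le_div_of_nonneg_left (by positivity) (by positivity) ?_)
    exact pow_le_pow_right₀ hl (Nat.le_succ m)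
  refine ⟨?_, fun d hd hdl χ hχ => ?_⟩
  · have h1 := key 1 1 isUnit_one (by rw [Nat.cast_one]; exact one_le_pow₀ hl)
    rw [filter_true_of_mem fun n _ => Subsingleton.elim _ _, Nat.totient_one, Nat.cast_one,
      div_one] at h1
    exact h1
  have : NeZero d := ⟨by omega⟩
  rw [mem_primChars] at hχ
  have hne : χ ≠ 1 := fun h1 => by
    rw [DirichletCharacter.isPrimitive_def, h1, DirichletCharacter.conductor_one] at hχ
    omega
  have hsum : ∑ r : ZMod d, χ r = 0 := MulChar.sum_eq_zero_of_ne_one hne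
  have e : charSum χ Λ y = ∑ r : ZMod d, χ r *
      ((∑ n ∈ (Icc 1 y).filter (fun n : ℕ => (n : ZMod d) = r), Λ n - y / d.totient : ℝ) : ℂ) := by
    simp only [Complex.ofReal_sub, mul_sub, sum_sub_distrib]
    rw [← sum_mul, hsum, zero_mul, sub_zero, charSum,
      ← sum_fiberwise (Ioc 0 y) (fun n : ℕ => (n : ZMod d))]
    refine sum_congr rfl fun r _ => ?_
    rw [Complex.ofReal_sum, mul_sum]
    refine sum_congr rfl fun n hn => ?_
    rw [(mem_filter.1 hn).2, mul_comm]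
  rw [e]
  refine (norm_sum_le _ _).trans ((sum_le_card_nsmul _ _ (C * y / Real.log y ^ m)
    fun r _ => ?_).trans ?_)
  · by_cases hr : IsUnit r
    · rw [norm_mul, Complex.norm_real, Real.norm_eq_abs]
      refine (mul_le_of_le_one_left (abs_nonneg _) (DirichletCharacter.norm_le_one χ r)).trans ?_
      exact key d r hr hdl
    · rw [MulChar.map_nonunit _ hr, zero_mul, norm_zero]
      positivity
  · rw [card_univ, ZMod.card, nsmul_eq_mul]

/-- **A dyadic range of conductors.** -/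
theorem dyadic_le {R Q x y : ℕ} {l : ℝ} {K : ℕ} (hl : 1 ≤ l) (hy : 0 < y) (hy3 : y ≤ 3 * x)
    (hR0 : 0 < R) (hRQ : R < Q) (hRl : l ^ K ≤ R) (hQ : (Q : ℝ) ≤ √(x : ℝ) / l ^ K)
    (hQy : Q ≤ y) (hLy : logOne y ≤ 4 * l) (h17 : l ^ K ≤ (x : ℝ) ^ (1 / 36 : ℝ)) :
    ∑ d ∈ (Ioc R (2 * R)).filter (· ≤ Q), 1 / (d.totient : ℝ) *
      ∑ χ ∈ primChars d, ‖charSum χ Λ y‖ ≤ 70000000 * l ^ 5 * ((x : ℝ) / l ^ K) := by
  obtain ⟨W, hW⟩ : ∃ W, W = (x : ℝ) / l ^ K := ⟨_, rfl⟩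
  rw [← hW]
  obtain ⟨U, hU⟩ : ∃ U, U = ⌊(y : ℝ) ^ (1 / 9 : ℝ)⌋₊ := ⟨_, rfl⟩
  have hy1 : (1 : ℝ) ≤ y := by exact_mod_cast hy
  have hU1 : 0 < U := hU ▸ Nat.floor_pos.2 (Real.one_le_rpow hy1 (by norm_num))
  have hUle : (U : ℝ) ≤ (y : ℝ) ^ (1 / 9 : ℝ) := hU ▸ Nat.floor_le (by positivity)
  have hUge : (y : ℝ) ^ (1 / 9 : ℝ) ≤ 4 * U := by
    have h1 := Nat.lt_floor_add_one ((y : ℝ) ^ (1 / 9 : ℝ))
    rw [← hU] at h1
    have : (1 : ℝ) ≤ U := by exact_mod_cast hU1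
    linarith
  have hx0 : 0 < x := by omega
  have hx1 : (1 : ℝ) ≤ x := by exact_mod_cast hx0
  have hlK : (1 : ℝ) ≤ l ^ K := one_le_pow₀ hl
  have hW0 : 0 ≤ W := hW ▸ by positivity
  have hR : (0 : ℝ) < R := Nat.cast_pos.2 hR0
  have hRQ' : (R : ℝ) ≤ Q := Nat.cast_le.2 hRQ.le
  have hQs : (Q : ℝ) ≤ √(x : ℝ) := hQ.trans (div_le_self (Real.sqrt_nonneg _) hlK)
  have hy3' : (y : ℝ) ≤ 3 * x := by exact_mod_cast hy3
  have hmono : ∀ s : ℝ, 0 ≤ s → s ≤ 1 → (y : ℝ) ^ s ≤ 3 * (x : ℝ) ^ s := fun s h0 h1 => by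
    refine (Real.rpow_le_rpow (by linarith) hy3' h0).trans ?_
    rw [Real.mul_rpow (by norm_num) (by linarith)]
    exact mul_le_mul_of_nonneg_right (Real.rpow_le_self_of_one_le (by norm_num) h1) (by positivity)
  have hpow : ∀ s : ℝ, s ≤ 35 / 36 → (x : ℝ) ^ s ≤ W := fun s hs => by
    rw [hW, le_div_iff₀ (by positivity)]
    refine (mul_le_mul (Real.rpow_le_rpow_of_exponent_le hx1 hs) h17 (by positivity)
      (by positivity)).trans (le_of_eq ?_)
    rw [← Real.rpow_add (by linarith)]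
    norm_num
  -- the three parts of the main term
  have t1 : (y : ℝ) / R ≤ 3 * W := by
    rw [hW, ← mul_div_assoc]
    exact div_le_div₀ (by positivity) hy3' (by positivity) hRl
  have t2 : (y : ℝ) / √(U : ℝ) ≤ 6 * W := by
    have h1 : (y : ℝ) ^ (1 / 18 : ℝ) ≤ 2 * √(U : ℝ) := by
      rw [show (1 / 18 : ℝ) = 1 / 9 * (1 / 2) by norm_num, Real.rpow_mul (by linarith),
        ← Real.sqrt_eq_rpow, show (2 : ℝ) = √(4 : ℝ) by
          rw [show (4 : ℝ) = 2 ^ 2 by norm_num, Real.sqrt_sq two_pos.le],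
        ← Real.sqrt_mul (by norm_num)]
      exact Real.sqrt_le_sqrt hUge
    have h2 : (y : ℝ) / √(U : ℝ) ≤ 2 * (y : ℝ) ^ (17 / 18 : ℝ) := by
      rw [div_le_iff₀ (Real.sqrt_pos.2 (Nat.cast_pos.2 hU1))]
      calc (y : ℝ) = (y : ℝ) ^ (17 / 18 : ℝ) * (y : ℝ) ^ (1 / 18 : ℝ) := by
            rw [← Real.rpow_add (by linarith)]
            norm_num
        _ ≤ (y : ℝ) ^ (17 / 18 : ℝ) * (2 * √(U : ℝ)) :=
            mul_le_mul_of_nonneg_left h1 (by positivity)
        _ = _ := by ring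
    refine h2.trans ?_
    have h3 := mul_le_mul_of_nonneg_left (hpow (17 / 18) (by norm_num))
      (show (0 : ℝ) ≤ 6 by norm_num)
    have h4 := hmono (17 / 18) (by norm_num) (by norm_num)
    linarith
  have t3 : (R : ℝ) * √(y : ℝ) ≤ 2 * W := by
    have h1 : √(y : ℝ) ≤ 2 * √(x : ℝ) := by
      rw [show (2 : ℝ) = √(4 : ℝ) by
        rw [show (4 : ℝ) = 2 ^ 2 by norm_num, Real.sqrt_sq two_pos.le],
        ← Real.sqrt_mul (by norm_num)]
      exact Real.sqrt_le_sqrt (by linarith)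
    calc (R : ℝ) * √(y : ℝ) ≤ √(x : ℝ) / l ^ K * (2 * √(x : ℝ)) := by
          refine mul_le_mul (hRQ'.trans hQ) h1 (Real.sqrt_nonneg _) (by positivity)
      _ = 2 * (√(x : ℝ) * √(x : ℝ) / l ^ K) := by ring
      _ = _ := by rw [Real.mul_self_sqrt (Nat.cast_nonneg x), hW]
  have t4 : (U : ℝ) ^ 2 * ((R : ℝ) * √((2 * R : ℕ) : ℝ)) ≤ 6 * W := by
    have h1 : √((2 * R : ℕ) : ℝ) ≤ 2 * (x : ℝ) ^ (1 / 4 : ℝ) := by
      push_cast
      rw [Real.sqrt_le_iff]
      refine ⟨by positivity, ?_⟩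
      rw [mul_pow, ← Real.rpow_natCast ((x : ℝ) ^ _), ← Real.rpow_mul (by linarith),
        show (1 / 4 : ℝ) * ((2 : ℕ) : ℝ) = 1 / 2 by norm_num, ← Real.sqrt_eq_rpow]
      linarith
    have h2 : (U : ℝ) ^ 2 ≤ 3 * (x : ℝ) ^ (2 / 9 : ℝ) := by
      refine ((pow_le_pow_left₀ (Nat.cast_nonneg U) hUle 2).trans (le_of_eq ?_)).trans
        (hmono (2 / 9) (by norm_num) (by norm_num))
      rw [← Real.rpow_natCast ((y : ℝ) ^ _), ← Real.rpow_mul (by linarith)]
      norm_num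
    have h3 : (R : ℝ) ≤ (x : ℝ) ^ (1 / 2 : ℝ) := by
      rw [← Real.sqrt_eq_rpow]
      exact hRQ'.trans hQs
    refine (mul_le_mul h2 (mul_le_mul h3 h1 (Real.sqrt_nonneg _) (by positivity)) (by positivity)
      (by positivity)).trans ?_
    have h4 := hpow (35 / 36) le_rfl
    rw [show (35 / 36 : ℝ) = 2 / 9 + (1 / 2 + 1 / 4) by norm_num, Real.rpow_add (by linarith),
      Real.rpow_add (by linarith)] at h4
    linarith
  have hT := mean_charSum_le (U := U) (R := 2 * R) hU1 hy (by omega)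
  refine le_trans (le_trans (le_of_eq (sum_filter _ _)) ?_) ((div_le_div_of_nonneg_right hT
    hR.le).trans ?_)
  · rw [le_div_iff₀ hR, sum_mul]
    refine le_trans (sum_le_sum (g := fun d : ℕ => (d : ℝ) / d.totient *
      ∑ χ ∈ primChars d, ‖charSum χ Λ y‖) fun d hd => ?_)
      (sum_le_sum_of_subset_of_nonneg (fun d hd => ?_) fun d _ _ => by positivity)
    · rw [mem_Ioc] at hd
      split_ifs
      · rw [mul_comm (1 / (d.totient : ℝ)), mul_comm ((d : ℝ) / d.totient), mul_assoc]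
        refine mul_le_mul_of_nonneg_left ?_ (sum_nonneg fun χ _ => norm_nonneg _)
        rw [one_div_mul_eq_div]
        exact div_le_div_of_nonneg_right (Nat.cast_le.2 hd.1.le) (Nat.cast_nonneg _)
      · rw [zero_mul]
        positivity
    · rw [mem_Ioc] at hd
      rw [mem_Icc]
      omega
  have e : (2700 * logOne y ^ 5 * meanTerm U (2 * R) y + 10 * (U : ℝ) ^ 2 * logOne y ^ 2 *
      (((2 * R : ℕ) : ℝ) ^ 2 * √((2 * R : ℕ) : ℝ))) / R =
      2700 * logOne y ^ 5 * ((y : ℝ) / R + 2 * (y / √(U : ℝ)) + 4 * (R * √(y : ℝ))) +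
        40 * logOne y ^ 2 * ((U : ℝ) ^ 2 * (R * √((2 * R : ℕ) : ℝ))) := by
    rw [meanTerm]
    push_cast
    field_simp
    ring
  rw [e]
  have hL1 := ThreePrimes.one_le_logOne y
  refine (add_le_add (mul_le_mul_of_nonneg_left (show (y : ℝ) / R + 2 * (y / √(U : ℝ)) +
    4 * (R * √(y : ℝ)) ≤ 23 * W by linarith) (by positivity))
    (mul_le_mul_of_nonneg_left t4 (by positivity))).trans ?_
  have h5 : logOne y ^ 5 ≤ 1024 * l ^ 5 := by
    refine (pow_le_pow_left₀ (by linarith) hLy 5).trans (le_of_eq ?_)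
    ring
  have h2 : logOne y ^ 2 ≤ 1024 * l ^ 5 := (pow_le_pow_right₀ hL1 (by norm_num)).trans h5
  have e1 := mul_le_mul_of_nonneg_right h5 hW0
  have e2 := mul_le_mul_of_nonneg_right h2 hW0
  have : 0 ≤ l ^ 5 * W := mul_nonneg (by positivity) hW0
  linarith

/-- **All conductors at one height.** -/
theorem exists_height_le (A : ℕ) : ∃ C : ℝ, 0 < C ∧ ∀ᶠ x : ℕ in atTop, ∀ Q y : ℕ,
    (Q : ℝ) ≤ √(x : ℝ) / Real.log x ^ (2 * A + 10) → √(x : ℝ) ≤ y → y ≤ 3 * x →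
      ∑ q ∈ Icc 1 Q, classBound y q ≤ C * ((x : ℝ) / Real.log x ^ (2 * A + 2)) := by
  obtain ⟨K, hK⟩ : ∃ K, K = 2 * A + 10 := ⟨_, rfl⟩
  obtain ⟨C₁, hC₁, hsmall⟩ := exists_small_le K (3 * K)
  obtain ⟨C₂, hC₂⟩ : ∃ C₂ : ℝ, C₂ = 12 * C₁ * 2 ^ (3 * K) := ⟨_, rfl⟩
  have hC₂0 : 0 < C₂ := by rw [hC₂]; positivity
  refine ⟨64 + 16 * (2 * C₂ + 210000000), by positivity, ?_⟩
  filter_upwards [eventually_log_pow_le K (show (0 : ℝ) < 1 / 36 by norm_num),
    eventually_log_ge (max 4 (2 ^ (K + 2)))] with x h36 hlarge Q y hQ hsy hy3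
  rw [← hK] at hQ
  obtain ⟨l, hl⟩ : ∃ l, l = Real.log x := ⟨_, rfl⟩
  rw [← hl] at h36 hlarge hQ ⊢
  have hl4 : 4 ≤ l := le_trans (le_max_left _ _) hlarge
  have hl0 : 0 < l := by linarith
  have hl1 : 1 ≤ l := by linarith
  have hx0 : 0 < x := by
    rcases Nat.eq_zero_or_pos x with rfl | h
    · simp at hl
      linarith
    · exact h
  have hsx : 0 < √(x : ℝ) := Real.sqrt_pos.2 (Nat.cast_pos.2 hx0)
  have hy0 : (0 : ℝ) < y := lt_of_lt_of_le hsx hsy
  have hy3' : (y : ℝ) ≤ 3 * x := by exact_mod_cast hy3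
  have hlyl : l / 2 ≤ Real.log y := by
    rw [hl, ← Real.log_sqrt (Nat.cast_nonneg x)]
    exact Real.log_le_log hsx hsy
  have hy3n : 3 ≤ y := by
    by_contra h
    have : Real.log y ≤ Real.log 2 := Real.log_le_log hy0 (by exact_mod_cast (show y ≤ 2 by omega))
    linarith [Real.log_two_lt_d9]
  have hlK : 1 ≤ l ^ K := one_le_pow₀ hl1
  have hQs : (Q : ℝ) ≤ √(x : ℝ) := hQ.trans (div_le_self (Real.sqrt_nonneg _) hlK)
  have hQy : Q ≤ y := Nat.cast_le.1 (hQs.trans hsy)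
  have hLy : logOne y ≤ 4 * l := by
    have h1 := Real.log_le_log hy0 hy3'
    rw [Real.log_mul (by norm_num) (Nat.cast_ne_zero.2 hx0.ne'), ← hl] at h1
    have : Real.log 3 ≤ 2 := by
      rw [Real.log_le_iff_le_exp (by norm_num)]
      linarith [Real.add_one_le_exp 2]
    rw [logOne]
    linarith
  have hLQ : logOne Q ≤ 4 * l := by
    refine le_trans ?_ hLy
    rw [logOne, logOne]
    rcases Nat.eq_zero_or_pos Q with rfl | h
    · simp [Real.log_natCast_nonneg]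
    · linarith [Real.log_le_log (Nat.cast_pos.2 h) (Nat.cast_le (α := ℝ).2 hQy)]
  obtain ⟨W, hW⟩ : ∃ W, W = (x : ℝ) / l ^ K := ⟨_, rfl⟩
  have hW0 : 0 ≤ W := hW ▸ by positivity
  obtain ⟨hψ, hchar⟩ := hsmall y hy3n
  have hylog : C₁ * y / Real.log y ^ (3 * K) ≤ 3 * C₁ * 2 ^ (3 * K) * ((x : ℝ) / l ^ (3 * K)) := by
    have h1 : l ^ (3 * K) / 2 ^ (3 * K) ≤ Real.log y ^ (3 * K) := by
      rw [← div_pow]
      exact pow_le_pow_left₀ (by linarith) hlyl _
    calc C₁ * y / Real.log y ^ (3 * K) ≤ C₁ * (3 * x) / (l ^ (3 * K) / 2 ^ (3 * K)) :=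
          div_le_div₀ (by positivity) (mul_le_mul_of_nonneg_left hy3' hC₁.le) (by positivity) h1
      _ = _ := by field_simp
  have hψ' : |∑ n ∈ Ioc 0 y, Λ n - y| ≤ C₂ * W := by
    have h12 : 3 * C₁ * 2 ^ (3 * K) ≤ C₂ := by
      rw [hC₂]
      have : 0 ≤ C₁ * (2 : ℝ) ^ (3 * K) := by positivity
      linarith
    refine (hψ.trans hylog).trans (mul_le_mul h12 ?_ (by positivity) hC₂0.le)
    rw [hW]
    exact div_le_div_of_nonneg_left (Nat.cast_nonneg x) (by positivity)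
      (pow_le_pow_right₀ hl1 (by omega))
  obtain ⟨D₁, hD⟩ : ∃ D₁, D₁ = ⌈l ^ K⌉₊ := ⟨_, rfl⟩
  have hDle : l ^ K ≤ D₁ := hD ▸ Nat.le_ceil _
  have hDge : (D₁ : ℝ) ≤ 2 * l ^ K := by
    have := Nat.ceil_lt_add_one (show 0 ≤ l ^ K by positivity)
    rw [← hD] at this
    linarith
  have hD0 : 0 < D₁ := Nat.cast_pos.1 (lt_of_lt_of_le (by positivity) hDle)
  obtain ⟨F, hF⟩ : ∃ F : ℕ → ℝ, F = fun d =>
      if d ≤ Q then 1 / (d.totient : ℝ) * ∑ χ ∈ primChars d, ‖charSum χ Λ y‖ else 0 := ⟨_, rfl⟩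
  have hF0 : ∀ d, 0 ≤ F d := fun d => by rw [hF]; positivity
  have hsm : ∑ d ∈ Icc 2 D₁, F d ≤ C₂ * W := by
    have hB : ∀ d ∈ Icc 2 D₁, F d ≤ (D₁ : ℝ) * (C₁ * y / Real.log y ^ (3 * K)) := by
      intro d hd
      rw [mem_Icc] at hd
      rw [hF]
      simp only
      split_ifs
      swap
      · positivity
      have hdl : (d : ℝ) ≤ Real.log y ^ (K + 1) := by
        refine (Nat.cast_le.2 hd.2).trans (hDge.trans ?_)
        have h2 : (2 : ℝ) ^ (K + 1) ≤ Real.log y := by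
          have := le_trans (le_max_right _ _) hlarge
          rw [pow_succ] at this
          linarith
        calc 2 * l ^ K ≤ 2 * (2 * Real.log y) ^ K :=
              mul_le_mul_of_nonneg_left (pow_le_pow_left₀ hl0.le (by linarith) K) two_pos.le
          _ = 2 ^ (K + 1) * Real.log y ^ K := by rw [mul_pow, pow_succ]; ring
          _ ≤ Real.log y * Real.log y ^ K := mul_le_mul_of_nonneg_right h2 (by positivity)
          _ = _ := by ring
      refine (mul_le_mul_of_nonneg_left (sum_le_card_nsmul _ _ _ fun χ hχ =>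
        hchar d hd.1 hdl χ hχ) (by positivity)).trans ?_
      rw [nsmul_eq_mul, ← mul_assoc, ← mul_assoc]
      refine mul_le_mul_of_nonneg_right (le_trans ?_ (Nat.cast_le.2 hd.2)) (by positivity)
      refine mul_le_of_le_one_left (Nat.cast_nonneg d) ?_
      rw [one_div_mul_eq_div]
      exact div_le_one_of_le₀ (Nat.cast_le.2 (card_primChars_le d)) (Nat.cast_nonneg _)
    refine (sum_le_card_nsmul _ _ _ hB).trans ?_
    rw [nsmul_eq_mul, ← mul_assoc]
    refine (mul_le_mul (mul_le_mul ((Nat.cast_le.2 (by simp : (Icc 2 D₁).card ≤ D₁)).trans hDge)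
      hDge (Nat.cast_nonneg _) (by positivity)) hylog (by positivity) (by positivity)).trans
      (le_of_eq ?_)
    rw [hC₂, hW, show 3 * K = K + K + K by ring, pow_add, pow_add]
    field_simp
    ring
  have key : ∀ J : ℕ, ∑ d ∈ Ioc D₁ (D₁ * 2 ^ J), F d ≤ J * (70000000 * l ^ 5 * W) := by
    intro J
    induction J with
    | zero => simp
    | succ J ih =>
      have h1 : D₁ ≤ D₁ * 2 ^ J := Nat.le_mul_of_pos_right D₁ (by positivity)
      have e : D₁ * 2 ^ (J + 1) = 2 * (D₁ * 2 ^ J) := by rw [pow_succ]; ring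
      rw [e, ← sum_Ioc_consecutive F h1 (by omega), Nat.cast_succ, add_mul _ (1 : ℝ), one_mul]
      refine add_le_add ih ?_
      rcases le_or_gt Q (D₁ * 2 ^ J) with hle | hgt
      · refine le_trans (le_of_eq (sum_eq_zero fun d hd => ?_)) (by positivity)
        rw [mem_Ioc] at hd
        rw [hF]
        simp only
        rw [if_neg (by omega)]
      · rw [hF, ← sum_filter, hW]
        exact dyadic_le hl1 (by omega) hy3 (by positivity) hgt
          (hDle.trans (Nat.cast_le.2 h1)) hQ hQy hLy h36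
  obtain ⟨J, hJ⟩ : ∃ J, J = Nat.log 2 Q + 1 := ⟨_, rfl⟩
  have hQJ : Q ≤ D₁ * 2 ^ J := hJ ▸ (Nat.lt_pow_succ_log_self one_lt_two Q).le.trans
    (Nat.le_mul_of_pos_left _ hD0)
  have hJl : (J : ℝ) ≤ 3 * l := by
    rcases Nat.eq_zero_or_pos Q with rfl | hQ0
    · simp [hJ]
      linarith
    have h3 : ((2 : ℝ) ^ Nat.log 2 Q) ≤ Q := by exact_mod_cast Nat.pow_log_le_self 2 hQ0.ne'
    have h4 := Real.log_le_log (by positivity) (h3.trans hQs)
    rw [Real.log_pow, Real.log_sqrt (Nat.cast_nonneg x), ← hl] at h4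
    have h5 : (0 : ℝ) ≤ Nat.log 2 Q := Nat.cast_nonneg _
    rw [hJ]
    push_cast
    nlinarith [Real.log_two_gt_d9]
  have hall : ∑ d ∈ Icc 2 Q, 1 / (d.totient : ℝ) * ∑ χ ∈ primChars d, ‖charSum χ Λ y‖ ≤
      C₂ * W + 210000000 * l ^ 6 * W := by
    refine le_trans (le_of_eq_of_le (sum_congr rfl fun d hd => ?_)
      (sum_le_sum_of_subset_of_nonneg (t := Icc 2 D₁ ∪ Ioc D₁ (D₁ * 2 ^ J)) (fun d hd => ?_)
        fun d _ _ => hF0 d)) ?_
    · rw [hF]
      simp only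
      rw [if_pos (mem_Icc.1 hd).2]
    · rw [mem_Icc] at hd
      rw [mem_union, mem_Icc, mem_Ioc]
      omega
    · rw [sum_union (disjoint_left.2 fun d h1 h2 => by
        rw [mem_Icc] at h1
        rw [mem_Ioc] at h2
        omega)]
      refine add_le_add hsm ((key J).trans ?_)
      refine (mul_le_mul_of_nonneg_right hJl (by positivity)).trans (le_of_eq ?_)
      ring
  refine (sum_classBound_le Q y).trans ?_
  obtain ⟨Z, hZ⟩ : ∃ Z, Z = (x : ℝ) / l ^ (2 * A + 2) := ⟨_, rfl⟩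
  rw [← hZ]
  have hWZ : l ^ 8 * W ≤ Z := by
    rw [hW, hZ, hK, show 2 * A + 10 = 8 + (2 * A + 2) by ring, pow_add]
    refine le_of_eq ?_
    field_simp
  have hone8 : ∀ n : ℕ, n ≤ 8 → l ^ n * W ≤ Z := fun n hn =>
    (mul_le_mul_of_nonneg_right (pow_le_pow_right₀ hl1 hn) hW0).trans hWZ
  have hQ2 : 4 * (Q : ℝ) ^ 2 * logOne y ^ 2 ≤ 64 * Z := by
    have h1 : (Q : ℝ) ^ 2 ≤ W := by
      refine (pow_le_pow_left₀ (Nat.cast_nonneg Q) hQ 2).trans ?_
      rw [div_pow, Real.sq_sqrt (Nat.cast_nonneg x), hW]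
      exact div_le_div_of_nonneg_left (Nat.cast_nonneg x) (by positivity)
        (le_self_pow₀ hlK two_ne_zero)
    have h2 := mul_le_mul h1 (pow_le_pow_left₀ (by linarith [ThreePrimes.one_le_logOne y]) hLy 2)
      (sq_nonneg _) hW0
    have h3 := hone8 2 (by norm_num)
    linarith
  have h3 := mul_le_mul (pow_le_pow_left₀ (by linarith [ThreePrimes.one_le_logOne Q]) hLQ 2)
    (add_le_add hψ' hall) (add_nonneg (abs_nonneg _) (sum_nonneg fun d _ => by positivity))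
    (by positivity)
  have h4 := mul_le_mul_of_nonneg_left (hone8 2 (by norm_num)) hC₂0.le
  have h5 := hone8 8 le_rfl
  linarith

/-- **The theorem of Bombieri and Vinogradov.** -/
theorem exists_bombieri_vinogradov (A : ℕ) : ∃ (B : ℕ) (C : ℝ), 0 < C ∧ ∀ x : ℕ, 3 ≤ x →
    ∀ Q : ℕ, (Q : ℝ) ≤ √(x : ℝ) / Real.log x ^ B → ∀ y a : ℕ → ℕ,
      (∀ q ∈ Icc 1 Q, y q ≤ x ∧ (a q).Coprime q) →
        ∑ q ∈ Icc 1 Q, |psiAP (y q) q (a q) - y q / q.totient| ≤
          C * ((x : ℝ) / Real.log x ^ A) := by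
  obtain ⟨C, hC, hev⟩ := exists_height_le A
  obtain ⟨X₀, hX₀⟩ := eventually_atTop.1 ((hev.and (eventually_log_ge 4)).and
    (eventually_log_pow_le (A + 3) (show (0 : ℝ) < 1 / 2 by norm_num)))
  obtain ⟨L₀, hL₀⟩ : ∃ L₀ : ℝ, L₀ = (Real.log X₀ + 1) ^ A := ⟨_, rfl⟩
  have hL₀0 : 0 < L₀ := hL₀ ▸ pow_pos (by linarith [Real.log_natCast_nonneg X₀]) A
  refine ⟨2 * A + 10, 3 * C + 32 + 7 * (X₀ : ℝ) * L₀, by positivity, fun x hx Q hQ y a hya => ?_⟩
  obtain ⟨l, hl⟩ : ∃ l, l = Real.log x := ⟨_, rfl⟩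
  rw [← hl] at hQ ⊢
  have hx0 : (0 : ℝ) < x := Nat.cast_pos.2 (by omega)
  have hl1 : 1 ≤ l := by
    rw [hl, Real.le_log_iff_exp_le hx0]
    have : (3 : ℝ) ≤ x := by exact_mod_cast hx
    linarith [Real.exp_one_lt_d9]
  have hl0 : 0 < l := by linarith
  have hQs : (Q : ℝ) ≤ √(x : ℝ) :=
    hQ.trans (div_le_self (Real.sqrt_nonneg _) (one_le_pow₀ hl1))
  rcases lt_or_ge x X₀ with hlt | hge
  · have h1 : ∑ q ∈ Icc 1 Q, |psiAP (y q) q (a q) - y q / q.totient| ≤ (Q : ℝ) * (7 * x) := by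
      refine (sum_le_card_nsmul _ _ (7 * (x : ℝ)) fun q hq => ?_).trans
        (le_of_eq (by rw [nsmul_eq_mul, Nat.card_Icc, Nat.add_sub_cancel]))
      have hyx : (y q : ℝ) ≤ x := Nat.cast_le.2 (hya q hq).1
      refine (abs_sub _ _).trans ?_
      rw [abs_of_nonneg (psiAP_nonneg _ _ _), abs_of_nonneg (by positivity)]
      have h2 : (y q : ℝ) / q.totient ≤ y q := div_le_self (Nat.cast_nonneg _)
        (by exact_mod_cast Nat.totient_pos.2 (mem_Icc.1 hq).1)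
      linarith [psiAP_le (y q) q (a q)]
    refine h1.trans ?_
    have hx1 : (1 : ℝ) ≤ x := by exact_mod_cast (show 1 ≤ x by omega)
    have h2 : (Q : ℝ) ≤ X₀ := hQs.trans ((Real.sqrt_le_left hx0.le).2
      (le_self_pow₀ hx1 two_ne_zero) |>.trans (Nat.cast_le.2 hlt.le))
    have h3 : (x : ℝ) ≤ L₀ * ((x : ℝ) / l ^ A) := by
      rw [mul_div_assoc', le_div_iff₀ (by positivity), mul_comm L₀]
      refine mul_le_mul_of_nonneg_left (hL₀ ▸ pow_le_pow_left₀ hl0.le ?_ A) hx0.le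
      rw [hl]
      linarith [Real.log_le_log hx0 (Nat.cast_le.2 hlt.le : (x : ℝ) ≤ X₀)]
    have h4 := mul_le_mul h2 (mul_le_mul_of_nonneg_left h3 (show (0 : ℝ) ≤ 7 by norm_num))
      (by positivity) (Nat.cast_nonneg X₀)
    have : 0 ≤ (3 * C + 32) * ((x : ℝ) / l ^ A) := by positivity
    linarith
  obtain ⟨⟨hht, hl4⟩, hsq⟩ := hX₀ x hge
  rw [← hl] at hht hl4 hsq
  rw [← Real.sqrt_eq_rpow] at hsq
  have h2P : 2 * l ^ (A + 2) ≤ √(x : ℝ) := by
    refine le_trans ?_ hsq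
    rw [pow_succ' l (A + 2)]
    exact mul_le_mul_of_nonneg_right (by linarith) (by positivity)
  have hP1 : 1 ≤ l ^ (A + 2) := one_le_pow₀ hl1
  obtain ⟨G, hG⟩ : ∃ G, G = ⌈l ^ (A + 2)⌉₊ := ⟨_, rfl⟩
  have hGle : l ^ (A + 2) ≤ G := hG ▸ Nat.le_ceil _
  have hGge : (G : ℝ) ≤ 2 * l ^ (A + 2) := by
    have := Nat.ceil_lt_add_one (show 0 ≤ l ^ (A + 2) by positivity)
    rw [← hG] at this
    linarith
  have hG0 : 0 < G := Nat.cast_pos.1 (lt_of_lt_of_le (by positivity) hGle)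
  have hsx : √(x : ℝ) ≤ x := (Real.sqrt_le_left hx0.le).2
    (le_self_pow₀ (by exact_mod_cast (show 1 ≤ x by omega)) two_ne_zero)
  have hGx : G ≤ x := Nat.cast_le.1 (hGge.trans (h2P.trans hsx))
  obtain ⟨H, hH⟩ : ∃ H, H = x / G + 1 := ⟨_, rfl⟩
  have hHge : √(x : ℝ) ≤ H := by
    have h1 : (x : ℝ) ≤ H * G := by
      have := Nat.lt_div_mul_add (a := x) hG0
      rw [hH]
      exact_mod_cast (show x ≤ (x / G + 1) * G by rw [add_mul, one_mul]; omega)
    refine le_of_mul_le_mul_right ?_ (Nat.cast_pos.2 hG0)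
    refine le_trans ?_ h1
    calc √(x : ℝ) * G ≤ √(x : ℝ) * √(x : ℝ) :=
          mul_le_mul_of_nonneg_left (hGge.trans h2P) (Real.sqrt_nonneg _)
      _ = x := Real.mul_self_sqrt hx0.le
  have hH2 : (H : ℝ) ≤ 2 * ((x : ℝ) / l ^ (A + 2)) := by
    have h1 : ((x / G : ℕ) : ℝ) ≤ (x : ℝ) / l ^ (A + 2) := Nat.cast_div_le.trans
      (div_le_div_of_nonneg_left hx0.le (by positivity) hGle)
    have h2 : (1 : ℝ) ≤ (x : ℝ) / l ^ (A + 2) := by
      rw [one_le_div (by positivity)]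
      linarith [h2P.trans hsx]
    rw [hH]
    push_cast
    linarith
  have hpt : ∀ q ∈ Icc 1 Q, |psiAP (y q) q (a q) - y q / q.totient| ≤
      ∑ j ∈ Icc 1 (G + 1), classBound (j * H) q + H * (1 / (q.totient : ℝ)) := by
    intro q hq
    obtain ⟨hyx, hco⟩ := hya q hq
    rw [mem_Icc] at hq
    have : NeZero q := ⟨by omega⟩
    have hu : IsUnit (a q : ZMod q) := (ZMod.isUnit_iff_coprime (a q) q).2 hco
    have hφ : (0 : ℝ) < q.totient := Nat.cast_pos.2 (Nat.totient_pos.2 hq.1)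
    obtain ⟨j, hj⟩ : ∃ j, j = y q / H := ⟨_, rfl⟩
    have hH0 : 0 < H := hH ▸ Nat.succ_pos _
    have hlo : j * H ≤ y q := hj ▸ Nat.div_mul_le_self _ _
    have hhi : y q ≤ (j + 1) * H := by
      have := Nat.lt_div_mul_add (a := y q) hH0
      rw [← hj] at this
      rw [add_mul, one_mul]
      omega
    have hjG : j ≤ G := by
      rw [hj]
      refine Nat.div_le_of_le_mul (hyx.trans ?_)
      have := Nat.lt_div_mul_add (a := x) hG0
      rw [hH, add_mul, one_mul]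
      omega
    obtain ⟨S, hS⟩ : ∃ S, S = ∑ i ∈ Icc 1 (G + 1), classBound (i * H) q := ⟨_, rfl⟩
    rw [← hS]
    have hS0 : 0 ≤ S := hS ▸ sum_nonneg fun i _ => classBound_nonneg _ _
    have hgrid : ∀ i : ℕ, 1 ≤ i → i ≤ G + 1 →
        |psiAP (i * H) q (a q) - (i * H : ℕ) / q.totient| ≤ S := fun i h1 h2 =>
      (abs_psiAP_sub_le hu _).trans (hS ▸ single_le_sum (f := fun i => classBound (i * H) q)
        (fun i _ => classBound_nonneg _ _) (mem_Icc.2 ⟨h1, h2⟩))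
    rw [mul_one_div, abs_le]
    constructor
    · have h3 : (y q : ℝ) / q.totient ≤ (j * H : ℕ) / q.totient + H / q.totient := by
        rw [← add_div]
        refine div_le_div_of_nonneg_right ?_ hφ.le
        exact_mod_cast (show y q ≤ j * H + H by rw [add_mul, one_mul] at hhi; exact hhi)
      have h4 := psiAP_mono hlo q (a q)
      rcases Nat.eq_zero_or_pos j with rfl | hj0
      · have := psiAP_nonneg (y q) q (a q)
        simp only [zero_mul, Nat.cast_zero, zero_div, zero_add] at h3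
        linarith
      · linarith [(abs_le.1 (hgrid j hj0 (by omega))).1]
    · have h3 : ((j + 1) * H : ℕ) / (q.totient : ℝ) ≤ y q / q.totient + H / q.totient := by
        rw [← add_div]
        refine div_le_div_of_nonneg_right ?_ hφ.le
        exact_mod_cast (show (j + 1) * H ≤ y q + H by rw [add_mul, one_mul]; omega)
      have h4 := psiAP_mono hhi q (a q)
      linarith [(abs_le.1 (hgrid (j + 1) (by omega) (by omega))).2]
  refine (sum_le_sum hpt).trans ?_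
  rw [sum_add_distrib, ← mul_sum, sum_comm]
  have hG1 : ((G + 1) * H : ℕ) ≤ 3 * x := by
    have h1 : G * H ≤ 2 * x := by
      rw [hH, mul_add, mul_one]
      have := Nat.mul_div_le x G
      omega
    have hG2 : 2 ≤ G := by
      have h4 : (2 : ℝ) ≤ G := le_trans (le_trans (by linarith) (le_self_pow₀ hl1 (by omega))) hGle
      exact_mod_cast h4
    have h2 : H ≤ x := by
      have := Nat.div_le_div_left hG2 two_pos (a := x)
      rw [hH]
      omega
    rw [add_mul, one_mul]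
    omega
  have hsum : ∀ j ∈ Icc 1 (G + 1), ∑ q ∈ Icc 1 Q, classBound (j * H) q ≤
      C * ((x : ℝ) / l ^ (2 * A + 2)) := by
    intro j hj
    rw [mem_Icc] at hj
    refine hht Q (j * H) hQ ?_ ((Nat.mul_le_mul_right H hj.2).trans hG1)
    push_cast
    exact hHge.trans (le_mul_of_one_le_left (Nat.cast_nonneg H) (by exact_mod_cast hj.1))
  have h1 := (sum_le_card_nsmul _ _ _ hsum)
  rw [nsmul_eq_mul, Nat.card_Icc, Nat.add_sub_cancel] at h1
  have hLQ : logOne Q ≤ 2 * l := by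
    rw [logOne]
    rcases Nat.eq_zero_or_pos Q with rfl | h
    · simp
      linarith
    · have := Real.log_le_log (Nat.cast_pos.2 h) (hQs.trans hsx)
      rw [← hl] at this
      linarith
  have h2 := mul_le_mul hH2 ((sum_inv_totient_le Q).trans
    (pow_le_pow_left₀ (by linarith [ThreePrimes.one_le_logOne Q]) hLQ 2))
    (sum_nonneg fun k _ => by positivity) (by positivity)
  have h3 : ((G + 1 : ℕ) : ℝ) * (C * ((x : ℝ) / l ^ (2 * A + 2))) ≤ 3 * C * ((x : ℝ) / l ^ A) := by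
    push_cast
    refine (mul_le_mul_of_nonneg_right (show (G : ℝ) + 1 ≤ 3 * l ^ (A + 2) by linarith)
      (by positivity)).trans (le_of_eq ?_)
    rw [show 2 * A + 2 = A + 2 + A by ring, pow_add l (A + 2) A]
    field_simp
  have h4 : 2 * ((x : ℝ) / l ^ (A + 2)) * (2 * l) ^ 2 = 8 * ((x : ℝ) / l ^ A) := by
    rw [pow_add]
    field_simp
    ring
  have : 0 ≤ 7 * (X₀ : ℝ) * L₀ * ((x : ℝ) / l ^ A) := by positivity
  have : 0 ≤ (x : ℝ) / l ^ A := by positivity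
  linarith

end FA.BombieriVinogradov
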