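import Fermat.Agent.BombieriVinogradov.Characters
import Fermat.Agent.ThreePrimes.Vaughan

/-!
# The mean value of `ψ (x, χ)`

Vaughan's identity, the inequality of Pólya and Vinogradov on the sums of type I and the bilinear
large sieve on the sums of type II give `∑_{2 ≤ d ≤ R} d / φ d ∑* |ψ (x, χ)|`.
-/

set_option autoImplicit false

noncomputable section

namespace FA.BombieriVinogradov

open Finset Complex ArithmeticFunction
open FA.ThreePrimes (lowPart highPart tailCoeff moebiusR oneR logOne)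
open scoped Real

/-- `∑_{n ≤ x} f n χ n`. -/
def charSum {q : ℕ} (χ : DirichletCharacter ℂ q) (f : ArithmeticFunction ℝ) (x : ℕ) : ℂ :=
  ∑ n ∈ Ioc 0 x, (f n : ℂ) * χ n

theorem charSum_add {q : ℕ} (χ : DirichletCharacter ℂ q) (f g : ArithmeticFunction ℝ) (x : ℕ) :
    charSum χ (f + g) x = charSum χ f x + charSum χ g x := by
  simp [charSum, add_mul, sum_add_distrib]

theorem charSum_sub {q : ℕ} (χ : DirichletCharacter ℂ q) (f g : ArithmeticFunction ℝ) (x : ℕ) :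
    charSum χ (f - g) x = charSum χ f x - charSum χ g x := by
  rw [eq_sub_iff_add_eq, ← charSum_add, sub_add_cancel]

theorem charSum_mul {q : ℕ} (χ : DirichletCharacter ℂ q) (f g : ArithmeticFunction ℝ) (x : ℕ) :
    charSum χ (f * g) x = ∑ m ∈ Ioc 0 x, (f m : ℂ) * χ m * charSum χ g (x / m) := by
  trans ∑ z ∈ Ioc 0 x ×ˢ Ioc 0 x with z.1 * z.2 ≤ x,
    (f z.1 : ℂ) * g z.2 * χ ((z.1 * z.2 : ℕ) : ZMod q)
  · unfold charSum
    trans ∑ n ∈ Ioc 0 x, ∑ z ∈ Ioc 0 x ×ˢ Ioc 0 x with z.1 * z.2 = n,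
      (f z.1 : ℂ) * g z.2 * χ ((z.1 * z.2 : ℕ) : ZMod q)
    · refine sum_congr rfl fun n hn => ?_
      rw [mem_Ioc] at hn
      rw [mul_apply, Nat.divisorsAntidiagonal_eq_prod_filter_of_le hn.1.ne' hn.2,
        Complex.ofReal_sum, sum_mul]
      refine sum_congr rfl fun z hz => ?_
      rw [(mem_filter.1 hz).2]
      push_cast
      rfl
    · simp_rw [sum_filter]
      rw [sum_comm]
      exact sum_congr rfl fun _ _ => (by simp_all)
  · rw [sum_filter, sum_product]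
    refine sum_congr rfl fun m hm => ?_
    rw [mem_Ioc] at hm
    rw [charSum, mul_sum, ← sum_filter]
    refine sum_congr ?_ fun k _ => ?_
    · ext k
      simp only [mem_filter, mem_Ioc, Nat.le_div_iff_mul_le hm.1, mul_comm m k]
      constructor
      · rintro ⟨⟨h1, -⟩, h2⟩
        exact ⟨h1, h2⟩
      · rintro ⟨h1, h2⟩
        exact ⟨⟨h1, le_trans (Nat.le_mul_of_pos_right k hm.1) h2⟩, h2⟩
    · push_cast
      rw [map_mul]
      ring

/-- The bound of Pólya and Vinogradov. -/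
def pvBound (q : ℕ) : ℝ := √(q : ℝ) * (1 + Real.log q)

theorem pvBound_nonneg (q : ℕ) : 0 ≤ pvBound q := by
  unfold pvBound
  positivity [Real.log_natCast_nonneg q]

theorem norm_interval_le {q : ℕ} [NeZero q] (hq : 1 < q) {χ : DirichletCharacter ℂ q}
    (hχ : χ.IsPrimitive) (j K : ℕ) : ‖∑ k ∈ Ioc j K, χ k‖ ≤ pvBound q := by
  refine le_of_eq_of_le (congrArg norm ?_)
    (FA.Summary.polyaVinogradov hq hχ ((j + 1 : ℕ) : ℤ) (K - j))
  rw [show Ioc j K = Ico (j + 1) (K + 1) by ext; simp, sum_Ico_eq_sum_range,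
    show K + 1 - (j + 1) = K - j by omega]
  exact sum_congr rfl fun i _ => by push_cast; rfl

theorem norm_charSum_one_le {q : ℕ} [NeZero q] (hq : 1 < q) {χ : DirichletCharacter ℂ q}
    (hχ : χ.IsPrimitive) (K : ℕ) : ‖charSum χ oneR K‖ ≤ pvBound q := by
  refine le_of_eq_of_le (congrArg norm (sum_congr rfl fun k hk => ?_))
    (norm_interval_le hq hχ 0 K)
  rw [mem_Ioc] at hk
  simp [oneR, zeta_apply, hk.1.ne']

theorem norm_charSum_log_le {q : ℕ} [NeZero q] (hq : 1 < q) {χ : DirichletCharacter ℂ q}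
    (hχ : χ.IsPrimitive) (K : ℕ) :
    ‖charSum χ ArithmeticFunction.log K‖ ≤ Real.log K * pvBound q := by
  rcases Nat.eq_zero_or_pos K with rfl | hK1
  · simp [charSum]
  obtain ⟨D, hD⟩ : ∃ D : ℕ → ℝ, D = fun j : ℕ => Real.log ((j + 1 : ℕ) : ℝ) - Real.log j :=
    ⟨_, rfl⟩
  have hD0 : ∀ j ∈ Ico 1 K, 0 ≤ D j := fun j hj => by
    rw [mem_Ico] at hj
    rw [hD]
    exact sub_nonneg.2 (Real.log_le_log (Nat.cast_pos.2 hj.1) (Nat.cast_le.2 (Nat.le_succ j)))
  have e : charSum χ ArithmeticFunction.log K =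
      ∑ j ∈ Ico 1 K, (D j : ℂ) * ∑ k ∈ Ioc j K, χ k := by
    simp only [mul_sum]
    rw [charSum, sum_comm' (t' := Ioc 0 K) (s' := fun k => Ico 1 k)]
    · refine sum_congr rfl fun k hk => ?_
      rw [mem_Ioc] at hk
      rw [← sum_mul, ← Complex.ofReal_sum, hD, sum_Ico_sub (fun j : ℕ => Real.log (j : ℝ)) hk.1]
      simp
    · intro j k
      simp only [mem_Ico, mem_Ioc]
      omega
  rw [e]
  refine (norm_sum_le _ _).trans ((sum_le_sum (g := fun j => D j * pvBound q)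
    fun j hj => ?_).trans (le_of_eq ?_))
  · rw [norm_mul, Complex.norm_real, Real.norm_eq_abs, abs_of_nonneg (hD0 j hj)]
    exact mul_le_mul_of_nonneg_left (norm_interval_le hq hχ j K) (hD0 j hj)
  · rw [← sum_mul, hD, sum_Ico_sub (fun j : ℕ => Real.log (j : ℝ)) hK1]
    simp

/-- **Sums of type I.** -/
theorem norm_typeOne_le {q : ℕ} (χ : DirichletCharacter ℂ q) (f g : ArithmeticFunction ℝ)
    {x K : ℕ} {B C : ℝ} (hB : 0 ≤ B) (hf : ∀ m ≤ x, |f m| ≤ B) (hf0 : ∀ m, K < m → f m = 0)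
    (hC : 0 ≤ C) (hg : ∀ j ≤ x, ‖charSum χ g j‖ ≤ C) : ‖charSum χ (f * g) x‖ ≤ K * (B * C) := by
  rw [charSum_mul]
  refine (norm_sum_le _ _).trans ((sum_le_sum (g := fun m => if m ≤ K then B * C else 0)
    fun m hm => ?_).trans ?_)
  · rw [mem_Ioc] at hm
    split_ifs with h
    · rw [norm_mul, norm_mul, Complex.norm_real, Real.norm_eq_abs]
      exact mul_le_mul ((mul_le_of_le_one_right (abs_nonneg _)
        (DirichletCharacter.norm_le_one χ _)).trans (hf m hm.2)) (hg _ (Nat.div_le_self x m))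
          (norm_nonneg _) hB
    · simp [hf0 m (not_le.1 h)]
  · rw [← sum_filter, sum_const, nsmul_eq_mul]
    refine mul_le_mul_of_nonneg_right (Nat.cast_le.2 ?_) (mul_nonneg hB hC)
    refine (card_le_card (t := Icc 1 K) fun m hm => ?_).trans (by simp)
    rw [mem_filter, mem_Ioc] at hm
    exact mem_Icc.2 ⟨hm.1.1, hm.2⟩

/-- The sums of type I and the first term. -/
theorem norm_easy_le {q : ℕ} [NeZero q] (hq : 1 < q) {χ : DirichletCharacter ℂ q}
    (hχ : χ.IsPrimitive) {U x : ℕ} (hU : 0 < U) (hqx : q ≤ 2 * x) :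
    ‖charSum χ (lowPart U Λ) x‖ + ‖charSum χ (lowPart U moebiusR * ArithmeticFunction.log) x‖ +
      ‖charSum χ (lowPart U Λ * lowPart U moebiusR * oneR) x‖ ≤
        10 * (U : ℝ) ^ 2 * logOne x ^ 2 * √(q : ℝ) := by
  obtain ⟨L, hL⟩ : ∃ L, L = logOne x := ⟨_, rfl⟩
  rw [← hL]
  have hL1 : 1 ≤ L := hL ▸ ThreePrimes.one_le_logOne x
  have hlog : ∀ n : ℕ, n ≤ 2 * x → Real.log n ≤ L := fun n hn =>
    hL ▸ ThreePrimes.log_le_logOne hn
  have hpv : pvBound q ≤ 2 * L * √(q : ℝ) := by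
    rw [pvBound, mul_comm _ (√(q : ℝ))]
    exact mul_le_mul_of_nonneg_left (by linarith [hlog q hqx]) (Real.sqrt_nonneg _)
  have h1 : ‖charSum χ (lowPart U Λ) x‖ ≤ 6 * U := by
    refine (norm_sum_le _ _).trans (le_trans ?_ (ThreePrimes.sum_vonMangoldt_le U))
    refine le_trans (sum_le_sum (g := fun n => if n ≤ U then Λ n else 0) fun n _ => ?_)
      (le_of_eq_of_le (sum_filter (fun n : ℕ => n ≤ U) fun n : ℕ => Λ n).symm
        (sum_le_sum_of_subset_of_nonneg (fun n hn => ?_) fun n _ _ => vonMangoldt_nonneg))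
    · rw [norm_mul, Complex.norm_real, Real.norm_eq_abs, ThreePrimes.lowPart_apply]
      split_ifs
      · rw [abs_of_nonneg vonMangoldt_nonneg]
        exact mul_le_of_le_one_right vonMangoldt_nonneg (DirichletCharacter.norm_le_one χ _)
      · simp
    · rw [mem_filter, mem_Ioc] at hn
      rw [mem_Ioc]
      omega
  have h2 : ‖charSum χ (lowPart U moebiusR * ArithmeticFunction.log) x‖ ≤
      U * (1 * (L * (2 * L * √(q : ℝ)))) := by
    refine norm_typeOne_le χ _ _ zero_le_one (fun m _ => ?_) (fun m hm => ?_) (by positivity)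
      fun j hj => ?_
    · rw [ThreePrimes.lowPart_apply]
      split_ifs
      · exact ThreePrimes.abs_moebiusR_le m
      · simp
    · rw [ThreePrimes.lowPart_apply, if_neg (not_le.2 hm)]
    · exact (norm_charSum_log_le hq hχ j).trans
        (mul_le_mul (hlog j (by omega)) hpv (pvBound_nonneg q) (by linarith))
  have h3 : ‖charSum χ (lowPart U Λ * lowPart U moebiusR * oneR) x‖ ≤
      ((U * U : ℕ) : ℝ) * (L * (2 * L * √(q : ℝ))) := by
    refine norm_typeOne_le χ _ _ (by linarith) (fun m hm => ?_)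
      (fun m hm => ThreePrimes.low_mul_eq_zero hm) (by positivity)
      fun j _ => (norm_charSum_one_le hq hχ j).trans hpv
    exact (ThreePrimes.abs_low_mul_le U m).trans (hlog m (by omega))
  have hU1 : (1 : ℝ) ≤ U := by exact_mod_cast hU
  have hs : 1 ≤ √(q : ℝ) := Real.one_le_sqrt.2 (by exact_mod_cast hq.le)
  have hUU : (U : ℝ) ≤ (U : ℝ) ^ 2 := le_self_pow₀ hU1 two_ne_zero
  have e1 := mul_le_mul_of_nonneg_right hUU (show (0 : ℝ) ≤ L ^ 2 * √(q : ℝ) by positivity)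
  have e2 : (U : ℝ) ^ 2 * 1 ≤ (U : ℝ) ^ 2 * (L ^ 2 * √(q : ℝ)) :=
    mul_le_mul_of_nonneg_left (one_le_mul_of_one_le_of_one_le (one_le_pow₀ hL1) hs) (sq_nonneg _)
  push_cast at h3
  nlinarith

theorem card_primChars_le (q : ℕ) : (primChars q).card ≤ q.totient := by
  rcases Nat.eq_zero_or_pos q with rfl | hq
  · simp [primChars]
  have : NeZero q := ⟨hq.ne'⟩
  rw [← DirichletCharacter.card_eq_totient_of_hasEnoughRootsOfUnity ℂ q, Nat.card_eq_fintype_card]
  exact card_le_univ _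

/-- A sum over the primitive characters with a constant bound. -/
theorem mean_const_le {R : ℕ} {F : ∀ d : ℕ, DirichletCharacter ℂ d → ℝ} {B : ℝ} (hB : 0 ≤ B)
    (h : ∀ d ∈ Icc 2 R, ∀ χ ∈ primChars d, F d χ ≤ B) :
    ∑ d ∈ Icc 2 R, (d : ℝ) / d.totient * ∑ χ ∈ primChars d, F d χ ≤ (R : ℝ) ^ 2 * B := by
  refine (sum_le_card_nsmul _ _ ((R : ℝ) * B) fun d hd => ?_).trans ?_
  · have hd' := mem_Icc.1 hd
    refine (mul_le_mul_of_nonneg_left (sum_le_card_nsmul _ _ B (h d hd)) (by positivity)).trans ?_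
    rw [nsmul_eq_mul, ← mul_assoc]
    refine mul_le_mul_of_nonneg_right ?_ hB
    refine (mul_le_mul_of_nonneg_left (Nat.cast_le.2 (card_primChars_le d))
      (by positivity)).trans ?_
    rw [div_mul_cancel₀ _ (Nat.cast_ne_zero.2 (Nat.totient_pos.2 (by omega)).ne')]
    exact Nat.cast_le.2 hd'.2
  · rw [nsmul_eq_mul, ← mul_assoc, sq]
    refine mul_le_mul_of_nonneg_right (mul_le_mul_of_nonneg_right ?_ (Nat.cast_nonneg R)) hB
    exact Nat.cast_le.2 (by simp)

theorem sieveConst_le {N R x : ℕ} (hx : 0 < x) (hR : R ≤ 2 * x) :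
    sieveConst N R ≤ 6 * logOne x * (N + (R : ℝ) ^ 2) := by
  have hL := ThreePrimes.one_le_logOne x
  have h1 : 1 + Real.log ((R * R + 1 : ℕ) : ℝ) ≤ 3 * logOne x := by
    have h2 : R * R + 1 ≤ 5 * (x * x) := by
      have := Nat.mul_le_mul hR hR
      have : 1 ≤ x * x := Nat.mul_pos hx hx
      rw [show 2 * x * (2 * x) = 4 * (x * x) by ring] at *
      omega
    have h3 := Real.log_le_log (Nat.cast_pos.2 (Nat.succ_pos _)) (Nat.cast_le (α := ℝ).2 h2)
    have h5 : Real.log 5 ≤ 2 := by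
      rw [Real.log_le_iff_le_exp (by norm_num)]
      calc (5 : ℝ) ≤ (2.7 : ℝ) ^ 2 := by norm_num
        _ ≤ Real.exp 1 ^ 2 := pow_le_pow_left₀ (by norm_num) (by linarith [Real.exp_one_gt_d9]) 2
        _ = Real.exp ((2 : ℕ) * 1) := (Real.exp_nat_mul 1 2).symm
        _ = _ := by norm_num
    have hx0 : (x : ℝ) ≠ 0 := Nat.cast_ne_zero.2 hx.ne'
    push_cast at h3 ⊢
    rw [Real.log_mul (by norm_num) (mul_ne_zero hx0 hx0), Real.log_mul hx0 hx0] at h3
    unfold logOne at *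
    linarith [Real.log_natCast_nonneg x]
  have e1 := mul_le_mul_of_nonneg_left h1 (show (0 : ℝ) ≤ 2 * ((R : ℝ) * R) by positivity)
  have e2 := mul_le_mul_of_nonneg_left hL (show (0 : ℝ) ≤ N by positivity)
  have e3 : (0 : ℝ) ≤ logOne x * N := mul_nonneg (by linarith) (Nat.cast_nonneg N)
  unfold sieveConst
  linarith

/-- The main quantity. -/
def meanTerm (U R x : ℕ) : ℝ := x + R * (x / √(U : ℝ)) + (R : ℝ) ^ 2 * √(x : ℝ)

theorem meanTerm_nonneg (U R x : ℕ) : 0 ≤ meanTerm U R x := by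
  unfold meanTerm
  positivity

/-- **A dyadic block of type II.** -/
theorem mean_block_le {U M R x : ℕ} (hU : 0 < U) (hUM : U ≤ M) (hx : 0 < x) (hR : R ≤ 2 * x) :
    ∑ q ∈ Icc 1 R, (q : ℝ) / q.totient * ∑ χ ∈ primChars q, ‖∑ m ∈ Ioc M (2 * M),
      (highPart U Λ m : ℂ) * χ m * charSum χ (tailCoeff U) (x / m)‖ ≤
        900 * logOne x ^ 4 * meanTerm U R x := by
  obtain ⟨L, hL⟩ : ∃ L, L = logOne x := ⟨_, rfl⟩
  rw [← hL]
  have hL1 : 1 ≤ L := hL ▸ ThreePrimes.one_le_logOne x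
  have hM : 0 < M := hU.trans_le hUM
  have h0 : 0 ≤ 900 * L ^ 4 * meanTerm U R x :=
    mul_nonneg (by positivity) (meanTerm_nonneg U R x)
  obtain ⟨K, hK⟩ : ∃ K, K = x / M := ⟨_, rfl⟩
  rcases le_or_gt K U with hKU | hKU
  · refine le_trans (le_of_eq (sum_eq_zero fun q _ => ?_)) h0
    refine mul_eq_zero_of_right _ (sum_eq_zero fun χ _ => norm_eq_zero.2
      (sum_eq_zero fun m hm => ?_))
    rw [mem_Ioc] at hm
    rw [charSum, sum_eq_zero, mul_zero]
    intro k hk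
    rw [mem_Ioc] at hk
    have : x / m ≤ K := hK ▸ Nat.div_le_div_left hm.1.le hM
    simp [ThreePrimes.tailCoeff_eq_zero (show k ≤ U by omega)]
  have hKM : K * M ≤ x := hK ▸ Nat.div_mul_le_self x M
  have hK1 : 0 < K := hU.trans hKU
  have hMx : M ≤ x := le_trans (Nat.le_mul_of_pos_left M hK1) hKM
  have hKx : K ≤ x := le_trans (Nat.le_mul_of_pos_right K hM) hKM
  obtain ⟨a, ha⟩ : ∃ a : ℕ → ℂ,
      a = fun m => if M < m then (highPart U Λ m : ℂ) else 0 := ⟨_, rfl⟩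
  have hform : ∀ (q : ℕ) (χ : DirichletCharacter ℂ q), ∑ m ∈ Ioc M (2 * M),
      (highPart U Λ m : ℂ) * χ m * charSum χ (tailCoeff U) (x / m) =
        ∑ m ∈ Ioc 0 (2 * M), ∑ n ∈ Ioc 0 K,
          if m * n ≤ x then a m * χ m * ((tailCoeff U n : ℂ) * χ n) else 0 := by
    intro q χ
    refine sum_subset_zero_on_sdiff (Ioc_subset_Ioc_left (Nat.zero_le M)) (fun m hm => ?_)
      fun m hm => ?_
    · rw [mem_sdiff, mem_Ioc, mem_Ioc] at hm
      refine sum_eq_zero fun n _ => ?_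
      rw [ha]
      simp only
      rw [if_neg (show ¬ M < m by omega)]
      simp
    · rw [mem_Ioc] at hm
      rw [charSum, mul_sum, ha, ← sum_filter]
      simp only [if_pos hm.1]
      refine sum_congr ?_ fun n _ => rfl
      ext n
      simp only [mem_filter, mem_Ioc, Nat.le_div_iff_mul_le (show 0 < m by omega), hK,
        Nat.le_div_iff_mul_le hM]
      constructor
      · rintro ⟨h1, h2⟩
        exact ⟨⟨h1, (Nat.mul_le_mul_left n hm.1.le).trans h2⟩, by rw [mul_comm]; exact h2⟩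
      · rintro ⟨⟨h1, -⟩, h2⟩
        exact ⟨h1, by rw [mul_comm]; exact h2⟩
  simp only [hform]
  refine (largeSieve_bilinear R (2 * M) K x (by omega) a fun n => (tailCoeff U n : ℂ)).trans ?_
  have hlog2 : 1 + Real.log ((2 * M : ℕ) : ℝ) ≤ 2 * L := by
    have := hL ▸ ThreePrimes.log_le_logOne (N := x) (n := 2 * M) (by omega)
    linarith
  have hA : ∑ m ∈ Ioc 0 (2 * M), ‖a m‖ ^ 2 ≤ L * (12 * M) := by
    refine (sum_le_sum (g := fun m : ℕ => L * Λ m) fun m hm => ?_).trans ?_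
    · rw [mem_Ioc] at hm
      rw [ha]
      simp only
      split_ifs with h
      · rw [Complex.norm_real, Real.norm_eq_abs, sq_abs, ThreePrimes.highPart_apply,
          if_neg (by omega), sq]
        exact mul_le_mul_of_nonneg_right (vonMangoldt_le_log.trans
          (hL ▸ ThreePrimes.log_le_logOne (show m ≤ 2 * x by omega))) vonMangoldt_nonneg
      · simp only [norm_zero, ne_eq, OfNat.ofNat_ne_zero, not_false_eq_true, zero_pow]
        exact mul_nonneg (by linarith) vonMangoldt_nonneg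
    · rw [← mul_sum]
      refine mul_le_mul_of_nonneg_left
        ((ThreePrimes.sum_vonMangoldt_le (2 * M)).trans (le_of_eq ?_)) (by linarith)
      push_cast
      ring
  have hB : ∑ k ∈ Ioc 0 K, ‖(tailCoeff U k : ℂ)‖ ^ 2 ≤ K * L ^ 3 := by
    refine (sum_le_sum fun k _ => ?_).trans ((ThreePrimes.sum_card_divisors_sq_le K).trans ?_)
    · rw [Complex.norm_real, Real.norm_eq_abs]
      exact pow_le_pow_left₀ (abs_nonneg _) (ThreePrimes.abs_tailCoeff_le U k) 2
    · refine mul_le_mul_of_nonneg_left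
        (pow_le_pow_left₀ (by linarith [ThreePrimes.one_le_logOne K]) ?_ 3) (Nat.cast_nonneg K)
      rw [hL, logOne, logOne]
      linarith [Real.log_le_log (Nat.cast_pos.2 hK1) (Nat.cast_le (α := ℝ).2 hKx)]
  have e1 := hL ▸ sieveConst_le (N := 2 * M) hx hR
  have e2 := hL ▸ sieveConst_le (N := K) hx hR
  refine (mul_le_mul (mul_le_mul_of_nonneg_left hlog2 (by norm_num)) (mul_le_mul
    (Real.sqrt_le_sqrt (mul_le_mul e1 hA (sum_nonneg fun m _ => sq_nonneg _) (by positivity)))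
    (Real.sqrt_le_sqrt (mul_le_mul e2 hB (sum_nonneg fun m _ => sq_nonneg _) (by positivity)))
    (Real.sqrt_nonneg _) (Real.sqrt_nonneg _)) (by positivity) (by positivity)).trans ?_
  rw [← Real.sqrt_mul (by positivity)]
  have hKU' : (K : ℝ) ≤ x / U := by
    rw [le_div_iff₀ (Nat.cast_pos.2 hU)]
    exact_mod_cast le_trans (Nat.mul_le_mul_left K hUM) hKM
  have hMU' : (M : ℝ) ≤ x / U := by
    rw [le_div_iff₀ (Nat.cast_pos.2 hU)]
    exact_mod_cast le_trans (by rw [mul_comm K]; exact Nat.mul_le_mul_left M hKU.le) hKM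
  have hKM' : (K : ℝ) * M ≤ x := by exact_mod_cast hKM
  have hxU : (x : ℝ) * (x / U) = (x / √(U : ℝ)) ^ 2 := by
    rw [div_pow, Real.sq_sqrt (Nat.cast_nonneg U)]
    ring
  have hmain : √(6 * L * (((2 * M : ℕ) : ℝ) + (R : ℝ) ^ 2) * (L * (12 * M)) *
      (6 * L * ((K : ℝ) + (R : ℝ) ^ 2) * ((K : ℝ) * L ^ 3))) ≤ 63 * L ^ 3 * meanTerm U R x := by
    rw [Real.sqrt_le_iff]
    refine ⟨mul_nonneg (by positivity) (meanTerm_nonneg U R x), ?_⟩
    obtain ⟨u, hu⟩ : ∃ u, u = (x : ℝ) / √(U : ℝ) := ⟨_, rfl⟩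
    obtain ⟨v, hv⟩ : ∃ v, v = √(x : ℝ) := ⟨_, rfl⟩
    have hu0 : 0 ≤ u := hu ▸ by positivity
    have hv0 : 0 ≤ v := hv ▸ Real.sqrt_nonneg _
    have hv2 : v ^ 2 = x := hv ▸ Real.sq_sqrt (Nat.cast_nonneg x)
    rw [← hu] at hxU
    rw [meanTerm, ← hu, ← hv]
    push_cast
    calc 6 * L * (2 * (M : ℝ) + (R : ℝ) ^ 2) * (L * (12 * M)) *
          (6 * L * ((K : ℝ) + (R : ℝ) ^ 2) * ((K : ℝ) * L ^ 3))
        = 432 * L ^ 6 * (((K : ℝ) * M) * (2 * ((K : ℝ) * M) + (R : ℝ) ^ 2 * (2 * M) +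
            (R : ℝ) ^ 2 * K + ((R : ℝ) ^ 2) ^ 2)) := by ring
      _ ≤ 432 * L ^ 6 * ((x : ℝ) * (2 * (x : ℝ) + (R : ℝ) ^ 2 * (2 * (x / U)) +
            (R : ℝ) ^ 2 * (x / U) + ((R : ℝ) ^ 2) ^ 2)) := by gcongr
      _ = 432 * L ^ 6 * (2 * ((x : ℝ)) ^ 2 + 3 * ((R : ℝ) * u) ^ 2 +
            ((R : ℝ) ^ 2 * v) ^ 2) := by rw [mul_pow (R : ℝ) u, ← hxU, mul_pow, hv2]; ring
      _ ≤ 432 * L ^ 6 * (3 * ((x : ℝ) + R * u + (R : ℝ) ^ 2 * v) ^ 2) := by
          refine mul_le_mul_of_nonneg_left ?_ (by positivity)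
          nlinarith [mul_nonneg (Nat.cast_nonneg (α := ℝ) x) (mul_nonneg (Nat.cast_nonneg
            (α := ℝ) R) hu0), mul_nonneg (Nat.cast_nonneg (α := ℝ) x) (mul_nonneg
            (sq_nonneg (R : ℝ)) hv0), mul_nonneg (mul_nonneg (Nat.cast_nonneg (α := ℝ) R) hu0)
            (mul_nonneg (sq_nonneg (R : ℝ)) hv0)]
      _ ≤ _ := by
          have : 0 ≤ L ^ 6 * ((x : ℝ) + R * u + (R : ℝ) ^ 2 * v) ^ 2 := by positivity
          rw [show (63 * L ^ 3 * ((x : ℝ) + R * u + (R : ℝ) ^ 2 * v)) ^ 2 =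
            3969 * (L ^ 6 * ((x : ℝ) + R * u + (R : ℝ) ^ 2 * v) ^ 2) by ring]
          linarith
  refine (mul_le_mul_of_nonneg_left hmain (by positivity)).trans ?_
  have : 0 ≤ L ^ 4 * meanTerm U R x := mul_nonneg (by positivity) (meanTerm_nonneg U R x)
  linarith

/-- **The mean value.** -/
theorem mean_charSum_le {U R x : ℕ} (hU : 0 < U) (hx : 0 < x) (hR : R ≤ 2 * x) :
    ∑ d ∈ Icc 2 R, (d : ℝ) / d.totient * ∑ χ ∈ primChars d, ‖charSum χ Λ x‖ ≤
      2700 * logOne x ^ 5 * meanTerm U R x +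
        10 * (U : ℝ) ^ 2 * logOne x ^ 2 * ((R : ℝ) ^ 2 * √(R : ℝ)) := by
  obtain ⟨H, hH⟩ : ∃ H, H = Nat.log 2 x + 1 := ⟨_, rfl⟩
  have hUH : x ≤ U * 2 ^ H := by
    rw [hH]
    exact (Nat.lt_pow_succ_log_self one_lt_two x).le.trans (Nat.le_mul_of_pos_left _ hU)
  obtain ⟨F, hF⟩ : ∃ F : ∀ q : ℕ, DirichletCharacter ℂ q → ℕ → ℂ,
      F = fun _ χ m => (highPart U Λ m : ℂ) * χ m * charSum χ (tailCoeff U) (x / m) := ⟨_, rfl⟩
  have hsplit : ∀ (d : ℕ) (χ : DirichletCharacter ℂ d), ‖charSum χ Λ x‖ ≤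
      (‖charSum χ (lowPart U Λ) x‖ +
        ‖charSum χ (lowPart U moebiusR * ArithmeticFunction.log) x‖ +
        ‖charSum χ (lowPart U Λ * lowPart U moebiusR * oneR) x‖) +
      ‖∑ m ∈ Ioc U (U * 2 ^ H), F d χ m‖ := by
    intro d χ
    conv_lhs => rw [ThreePrimes.vaughan U, charSum_add, charSum_sub, charSum_add]
    refine (norm_add_le _ _).trans (add_le_add ((norm_sub_le _ _).trans
      (add_le_add (norm_add_le _ _) le_rfl)) (le_of_eq (congrArg norm ?_)))
    rw [charSum_mul, hF]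
    refine sum_congr_of_eq_on_inter ?_ ?_ ?_
    · intro m hm hm'
      rw [mem_Ioc] at hm hm'
      rw [ThreePrimes.highPart_apply, if_pos (by omega)]
      simp
    · intro m hm hm'
      rw [mem_Ioc] at hm hm'
      simp only
      rw [Nat.div_eq_of_lt (by omega)]
      simp [charSum]
    · intros
      rfl
  refine (sum_le_sum fun d _ => mul_le_mul_of_nonneg_left (sum_le_sum fun χ _ => hsplit d χ)
    (by positivity)).trans ?_
  simp only [sum_add_distrib, mul_add]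
  rw [add_comm (2700 * _ * _)]
  refine add_le_add ?_ ?_
  · simp only [← mul_add, ← sum_add_distrib]
    refine (mean_const_le (B := 10 * (U : ℝ) ^ 2 * logOne x ^ 2 * √(R : ℝ)) (by positivity)
      fun d hd χ hχ => ?_).trans (le_of_eq (by ring))
    rw [mem_Icc] at hd
    have : NeZero d := ⟨by omega⟩
    refine (norm_easy_le (by omega) (mem_primChars.1 hχ) hU (by omega)).trans ?_
    refine mul_le_mul_of_nonneg_left (Real.sqrt_le_sqrt (Nat.cast_le.2 hd.2)) (by positivity)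
  have key : ∀ k : ℕ, ∑ d ∈ Icc 2 R, (d : ℝ) / d.totient *
      ∑ χ ∈ primChars d, ‖∑ m ∈ Ioc U (U * 2 ^ k), F d χ m‖ ≤
        k * (900 * logOne x ^ 4 * meanTerm U R x) := by
    intro k
    induction k with
    | zero => simp
    | succ k ih =>
      have h1 : U ≤ U * 2 ^ k := Nat.le_mul_of_pos_right U (by positivity)
      rw [Nat.cast_succ, add_mul _ (1 : ℝ), one_mul]
      have e : U * 2 ^ (k + 1) = 2 * (U * 2 ^ k) := by rw [pow_succ]; ring
      refine (sum_le_sum fun d _ => mul_le_mul_of_nonneg_left (sum_le_sum (g := fun χ =>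
        ‖∑ m ∈ Ioc U (U * 2 ^ k), F d χ m‖ +
          ‖∑ m ∈ Ioc (U * 2 ^ k) (2 * (U * 2 ^ k)), F d χ m‖) fun χ _ => ?_)
        (by positivity)).trans ?_
      · rw [e, ← sum_Ioc_consecutive _ h1 (by omega)]
        exact norm_add_le _ _
      simp only [sum_add_distrib, mul_add]
      refine add_le_add ih (le_trans (sum_le_sum_of_subset_of_nonneg
        (Icc_subset_Icc_left (show 1 ≤ 2 by norm_num)) fun d _ _ => by positivity) ?_)
      rw [hF]
      exact mean_block_le hU h1 hx hR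
  refine (key H).trans ?_
  have hH2 : (H : ℝ) ≤ 3 * logOne x := by
    have h3 : ((2 : ℝ) ^ Nat.log 2 x) ≤ x := by exact_mod_cast Nat.pow_log_le_self 2 hx.ne'
    have h4 := Real.log_le_log (by positivity) h3
    rw [Real.log_pow] at h4
    have h5 : (0 : ℝ) ≤ Nat.log 2 x := Nat.cast_nonneg _
    rw [hH, logOne]
    push_cast
    nlinarith [Real.log_two_gt_d9]
  refine (mul_le_mul_of_nonneg_right hH2 (mul_nonneg (mul_nonneg (by norm_num)
    (pow_nonneg (by linarith [ThreePrimes.one_le_logOne x]) 4))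
      (meanTerm_nonneg U R x))).trans (le_of_eq ?_)
  ring

end FA.BombieriVinogradov
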