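import Fermat.Agent.BombieriVinogradov.MeanValue
import Fermat.Agent.SiegelWalfisz.ErrorTerm

/-!
# From progressions to primitive characters

`|ψ (y; q, a) - y / φ q|` is at most the average over the characters `χ ≠ 1` modulo `q`, each of
which is induced by a primitive character of a divisor `d ≥ 2` of `q`.
-/

set_option autoImplicit false

noncomputable section

namespace FA.BombieriVinogradov

open Finset Complex ArithmeticFunction
open FA.ThreePrimes (logOne)
open scoped Real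
open ArithmeticFunction.vonMangoldt (residueClass residueClass_apply)

/-- `ψ (y; q, a)`. -/
def psiAP (y q a : ℕ) : ℝ :=
  ∑ n ∈ (Icc 1 y).filter (fun n : ℕ => (n : ZMod q) = (a : ZMod q)), Λ n

theorem psiAP_nonneg (y q a : ℕ) : 0 ≤ psiAP y q a :=
  sum_nonneg fun _ _ => vonMangoldt_nonneg

theorem psiAP_mono {y y' : ℕ} (h : y ≤ y') (q a : ℕ) : psiAP y q a ≤ psiAP y' q a :=
  sum_le_sum_of_subset_of_nonneg (filter_subset_filter _ (Icc_subset_Icc_right h))
    fun _ _ _ => vonMangoldt_nonneg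

theorem psiAP_le (y q a : ℕ) : psiAP y q a ≤ 6 * y :=
  (sum_le_sum_of_subset_of_nonneg (filter_subset _ _) fun _ _ _ => vonMangoldt_nonneg).trans
    (ThreePrimes.sum_vonMangoldt_le y)

theorem psiAP_eq {q a : ℕ} [NeZero q] (ha : IsUnit (a : ZMod q)) (y : ℕ) :
    ((q.totient * psiAP y q a : ℝ) : ℂ) =
      ∑ χ : DirichletCharacter ℂ q, χ (a : ZMod q)⁻¹ * charSum χ Λ y := by
  have hφ : (q.totient : ℂ) ≠ 0 := Nat.cast_ne_zero.2 (Nat.totient_pos.2 (NeZero.pos q)).ne'
  have e : psiAP y q a = ∑ n ∈ Ioc 0 y, residueClass (a : ZMod q) n := by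
    rw [psiAP, sum_filter]
    refine sum_congr rfl fun n _ => ?_
    simp [residueClass, Set.indicator_apply]
  simp only [e, charSum, mul_sum]
  rw [sum_comm, Complex.ofReal_sum]
  refine sum_congr rfl fun n _ => ?_
  push_cast
  rw [residueClass_apply ha n, ← mul_assoc, mul_inv_cancel₀ hφ, one_mul]
  exact sum_congr rfl fun χ _ => by ring

theorem bad_sum_le (q y : ℕ) [NeZero q] :
    ∑ n ∈ (Ioc 0 y).filter (fun n => ¬ n.Coprime q), Λ n ≤ 2 * (q : ℝ) * logOne y ^ 2 := by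
  classical
  have hL := ThreePrimes.one_le_logOne y
  refine le_trans (le_of_eq (sum_subset (filter_subset (fun n => IsPrimePow n) _) fun n hn hn' =>
    ?_).symm) ?_
  · rw [mem_filter, not_and] at hn'
    exact vonMangoldt_eq_zero_iff.2 (hn' hn)
  refine (sum_le_card_nsmul _ _ (logOne y) fun n hn => ?_).trans ?_
  · rw [mem_filter, mem_filter, mem_Ioc] at hn
    exact vonMangoldt_le_log.trans (ThreePrimes.log_le_logOne (by omega))
  rw [nsmul_eq_mul, sq, ← mul_assoc]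
  refine mul_le_mul_of_nonneg_right ?_ (by linarith)
  refine (Nat.cast_le.2 ((card_le_card (t := (Icc 1 y).filter
    fun n => IsPrimePow n ∧ ¬ n.Coprime q) fun n hn => ?_).trans
      (SiegelWalfisz.card_bad_le q y))).trans ?_
  · rw [mem_filter, mem_filter, mem_Ioc] at hn
    rw [mem_filter, mem_Icc]
    exact ⟨⟨hn.1.1.1, hn.1.1.2⟩, hn.2, hn.1.2⟩
  push_cast
  rw [mul_comm 2 (q : ℝ), mul_assoc (q : ℝ)]
  refine mul_le_mul_of_nonneg_left ?_ (Nat.cast_nonneg q)
  rcases Nat.eq_zero_or_pos y with rfl | hy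
  · simp [logOne]
  have h3 : ((2 : ℝ) ^ Nat.log 2 y) ≤ y := by exact_mod_cast Nat.pow_log_le_self 2 hy.ne'
  have h4 := Real.log_le_log (by positivity) h3
  rw [Real.log_pow] at h4
  have h5 : (0 : ℝ) ≤ Nat.log 2 y := Nat.cast_nonneg _
  rw [logOne]
  nlinarith [Real.log_two_gt_d9]

theorem norm_changeLevel_le {d q : ℕ} [NeZero q] (h : d ∣ q) (ψ : DirichletCharacter ℂ d)
    (y : ℕ) : ‖charSum (DirichletCharacter.changeLevel h ψ) Λ y‖ ≤
      ‖charSum ψ Λ y‖ + 2 * (q : ℝ) * logOne y ^ 2 := by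
  classical
  have e : charSum (DirichletCharacter.changeLevel h ψ) Λ y = charSum ψ Λ y -
      ∑ n ∈ (Ioc 0 y).filter (fun n => ¬ n.Coprime q), (Λ n : ℂ) * ψ n := by
    rw [eq_sub_iff_add_eq, charSum, charSum, sum_filter, ← sum_add_distrib]
    refine sum_congr rfl fun n _ => ?_
    by_cases hn : n.Coprime q
    · rw [if_neg (not_not_intro hn), add_zero]
      congr 1
      have hu : IsCoprime (n : ℤ) q := Nat.isCoprime_iff_coprime.2 hn
      have := DirichletCharacter.changeLevel_eq_cast_of_dvd' ψ h hu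
      push_cast at this
      exact this
    · rw [if_pos hn, MulChar.map_nonunit _ fun hu => hn ((ZMod.isUnit_iff_coprime n q).1 hu),
        mul_zero, zero_add]
  rw [e]
  refine (norm_sub_le _ _).trans (add_le_add le_rfl ((norm_sum_le _ _).trans
    (le_trans (sum_le_sum fun n _ => ?_) (bad_sum_le q y))))
  rw [norm_mul, Complex.norm_real, Real.norm_eq_abs, abs_of_nonneg vonMangoldt_nonneg]
  exact mul_le_of_le_one_right vonMangoldt_nonneg (DirichletCharacter.norm_le_one ψ _)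

/-- The primitive characters of the divisors `≥ 2` of `q`. -/
def inducing (q : ℕ) : Finset (Σ d : ℕ, DirichletCharacter ℂ d) :=
  (q.divisors.filter (2 ≤ ·)).sigma primChars

theorem sum_nontrivial_le {q : ℕ} [NeZero q] (y : ℕ) :
    ∑ χ ∈ (univ : Finset (DirichletCharacter ℂ q)).erase 1, ‖charSum χ Λ y‖ ≤
      (∑ z ∈ inducing q, ‖charSum z.2 Λ y‖) + q.totient * (2 * q * logOne y ^ 2) := by
  classical
  obtain ⟨G, hG⟩ : ∃ G : (Σ d : ℕ, DirichletCharacter ℂ d) → DirichletCharacter ℂ q,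
      G = fun z => if h : z.1 ∣ q then DirichletCharacter.changeLevel h z.2 else 1 := ⟨_, rfl⟩
  obtain ⟨J, hJ⟩ : ∃ J : Finset (Σ d : ℕ, DirichletCharacter ℂ d),
      J = ((univ : Finset (DirichletCharacter ℂ q)).erase 1).image
        fun χ => ⟨χ.conductor, χ.primitiveCharacter⟩ := ⟨_, rfl⟩
  have hGJ : ∀ χ : DirichletCharacter ℂ q, G ⟨χ.conductor, χ.primitiveCharacter⟩ = χ := fun χ => by
    rw [hG]
    simp only
    rw [dif_pos χ.conductor_dvd_level]
    exact DirichletCharacter.changeLevel_primitiveCharacter χ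
  have hinj : Set.InjOn (fun χ : DirichletCharacter ℂ q =>
      (⟨χ.conductor, χ.primitiveCharacter⟩ : Σ d : ℕ, DirichletCharacter ℂ d))
      ((univ : Finset (DirichletCharacter ℂ q)).erase 1 : Finset _) := fun χ _ χ' _ h => by
    rw [← hGJ χ, ← hGJ χ']
    exact congrArg G h
  have hsub : J ⊆ inducing q := by
    intro z hz
    rw [hJ, mem_image] at hz
    obtain ⟨χ, hχ, rfl⟩ := hz
    rw [mem_erase] at hχ
    rw [inducing, mem_sigma, mem_filter, Nat.mem_divisors]
    have h0 := χ.conductor_ne_zero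
    have h1 : χ.conductor ≠ 1 := fun h => hχ.1 (χ.eq_one_iff_conductor_eq_one.2 h)
    have : NeZero χ.conductor := ⟨h0⟩
    exact ⟨⟨⟨χ.conductor_dvd_level, NeZero.ne q⟩, show 2 ≤ χ.conductor by omega⟩,
      mem_primChars.2 χ.primitiveCharacter_isPrimitive⟩
  have hstep : ∀ χ ∈ (univ : Finset (DirichletCharacter ℂ q)).erase 1, ‖charSum χ Λ y‖ ≤
      ‖charSum χ.primitiveCharacter Λ y‖ + 2 * (q : ℝ) * logOne y ^ 2 := fun χ _ => by
    conv_lhs => rw [← DirichletCharacter.changeLevel_primitiveCharacter χ]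
    exact norm_changeLevel_le _ _ _
  refine (sum_le_sum hstep).trans ?_
  rw [sum_add_distrib, sum_const, nsmul_eq_mul]
  refine add_le_add ?_ (mul_le_mul_of_nonneg_right (Nat.cast_le.2 ?_) (by positivity))
  · rw [← sum_image (f := fun z : Σ d : ℕ, DirichletCharacter ℂ d => ‖charSum z.2 Λ y‖) hinj, ← hJ]
    exact sum_le_sum_of_subset_of_nonneg hsub fun _ _ _ => norm_nonneg _
  · rw [← DirichletCharacter.card_eq_totient_of_hasEnoughRootsOfUnity ℂ q,
      Nat.card_eq_fintype_card]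
    exact card_le_univ _

/-- The bound for one modulus, the same for every class. -/
def classBound (y q : ℕ) : ℝ :=
  4 * q * logOne y ^ 2 +
    (|∑ n ∈ Ioc 0 y, Λ n - y| + ∑ z ∈ inducing q, ‖charSum z.2 Λ y‖) / q.totient

theorem abs_psiAP_sub_le {q a : ℕ} [NeZero q] (ha : IsUnit (a : ZMod q)) (y : ℕ) :
    |psiAP y q a - y / q.totient| ≤ classBound y q := by
  classical
  have hφ : (0 : ℝ) < q.totient := Nat.cast_pos.2 (Nat.totient_pos.2 (NeZero.pos q))
  have hφ1 : (1 : ℝ) ≤ q.totient := by exact_mod_cast Nat.totient_pos.2 (NeZero.pos q)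
  have hone : (1 : DirichletCharacter ℂ q) (a : ZMod q)⁻¹ = 1 := by
    obtain ⟨u, hu⟩ := ha
    rw [← hu, ZMod.inv_coe_unit, MulChar.one_apply_coe]
  have h1 : ‖charSum (1 : DirichletCharacter ℂ q) Λ y - ((∑ n ∈ Ioc 0 y, Λ n : ℝ) : ℂ)‖ ≤
      2 * (q : ℝ) * logOne y ^ 2 := by
    refine le_trans ?_ (bad_sum_le q y)
    rw [charSum, Complex.ofReal_sum, sum_filter, ← sum_sub_distrib]
    refine (norm_sum_le _ _).trans (sum_le_sum fun n _ => ?_)
    by_cases hn : n.Coprime q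
    · rw [if_neg (not_not_intro hn), MulChar.one_apply ((ZMod.isUnit_iff_coprime n q).2 hn),
        mul_one, sub_self, norm_zero]
    · rw [if_pos hn, MulChar.map_nonunit _ fun hu => hn ((ZMod.isUnit_iff_coprime n q).1 hu),
        mul_zero, zero_sub, norm_neg, Complex.norm_real, Real.norm_eq_abs,
        abs_of_nonneg vonMangoldt_nonneg]
  have key : |q.totient * psiAP y q a - y| ≤ |∑ n ∈ Ioc 0 y, Λ n - y| + 2 * q * logOne y ^ 2 +
      ∑ χ ∈ (univ : Finset (DirichletCharacter ℂ q)).erase 1, ‖charSum χ Λ y‖ := by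
    rw [← Real.norm_eq_abs, ← Complex.norm_real, Complex.ofReal_sub, psiAP_eq ha,
      ← add_sum_erase univ _ (mem_univ (1 : DirichletCharacter ℂ q)), hone, one_mul]
    rw [show charSum (1 : DirichletCharacter ℂ q) Λ y +
        ∑ χ ∈ univ.erase 1, χ (a : ZMod q)⁻¹ * charSum χ Λ y - ((y : ℝ) : ℂ) =
      (((∑ n ∈ Ioc 0 y, Λ n - y : ℝ) : ℂ)) +
        (charSum (1 : DirichletCharacter ℂ q) Λ y - ((∑ n ∈ Ioc 0 y, Λ n : ℝ) : ℂ)) +
        ∑ χ ∈ univ.erase 1, χ (a : ZMod q)⁻¹ * charSum χ Λ y by push_cast; ring]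
    refine (norm_add₃_le).trans (add_le_add (add_le_add (le_of_eq ?_) h1)
      ((norm_sum_le _ _).trans (sum_le_sum fun χ _ => ?_)))
    · rw [Complex.norm_real, Real.norm_eq_abs]
    · rw [norm_mul]
      exact mul_le_of_le_one_left (norm_nonneg _) (DirichletCharacter.norm_le_one χ _)
  rw [show psiAP y q a - y / q.totient = (q.totient * psiAP y q a - y) / q.totient by field_simp,
    abs_div, abs_of_pos hφ, div_le_iff₀ hφ, classBound, add_mul, div_mul_cancel₀ _ hφ.ne']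
  have h2 := sum_nontrivial_le (q := q) y
  have h3 := mul_le_mul_of_nonneg_left hφ1 (show (0 : ℝ) ≤ 2 * q * logOne y ^ 2 by positivity)
  linarith

theorem classBound_nonneg (y q : ℕ) : 0 ≤ classBound y q := by
  unfold classBound
  positivity

/-- `∑_{k ≤ Q} 1 / φ k = O ((log Q)²)`. -/
theorem sum_inv_totient_le (Q : ℕ) :
    ∑ k ∈ Icc 1 Q, (1 : ℝ) / k.totient ≤ logOne Q ^ 2 := by
  have h1 : ∀ k ∈ Icc 1 Q, (1 : ℝ) / k.totient ≤ ∑ d ∈ Icc 1 Q, if d ∣ k then (k : ℝ)⁻¹ else 0 := by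
    intro k hk
    rw [mem_Icc] at hk
    have hk0 : (0 : ℝ) < k := Nat.cast_pos.2 hk.1
    have hle : k ≤ k.totient * k.divisors.card := by
      calc k = ∑ d ∈ k.divisors, d.totient := (Nat.sum_totient k).symm
        _ ≤ ∑ _d ∈ k.divisors, k.totient := sum_le_sum fun d hd => Nat.le_of_dvd
              (Nat.totient_pos.2 hk.1) (Nat.totient_dvd_of_dvd (Nat.dvd_of_mem_divisors hd))
        _ = _ := by rw [sum_const, smul_eq_mul, mul_comm]
    have e : (Icc 1 Q).filter (· ∣ k) = k.divisors := by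
      ext d
      simp only [mem_filter, mem_Icc, Nat.mem_divisors]
      constructor
      · rintro ⟨-, h⟩
        exact ⟨h, by omega⟩
      · rintro ⟨h, -⟩
        exact ⟨⟨Nat.pos_of_dvd_of_pos h hk.1, (Nat.le_of_dvd hk.1 h).trans hk.2⟩, h⟩
    rw [← sum_filter, e, sum_const, nsmul_eq_mul, ← div_eq_mul_inv,
      div_le_div_iff₀ (Nat.cast_pos.2 (Nat.totient_pos.2 hk.1)) hk0, one_mul, mul_comm]
    exact_mod_cast hle
  refine (sum_le_sum h1).trans ?_
  rw [sum_comm]
  have hh : ∑ j ∈ Icc 1 Q, (j : ℝ)⁻¹ ≤ logOne Q := by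
    have := harmonic_le_one_add_log Q
    rw [harmonic_eq_sum_Icc] at this
    push_cast at this
    exact this
  refine le_trans (sum_le_sum (g := fun d : ℕ => (d : ℝ)⁻¹ * logOne Q) fun d hd => ?_) ?_
  · rw [mem_Icc] at hd
    rw [← sum_filter]
    refine (sum_le_sum_of_subset_of_nonneg (t := (Icc 1 Q).image (d * ·)) ?_
      fun k _ _ => by positivity).trans ?_
    · intro k hk
      rw [mem_filter, mem_Icc] at hk
      obtain ⟨j, rfl⟩ := hk.2
      refine mem_image.2 ⟨j, mem_Icc.2 ⟨Nat.pos_of_mul_pos_left hk.1.1, ?_⟩, rfl⟩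
      exact (Nat.le_mul_of_pos_left j hd.1).trans hk.1.2
    · rw [sum_image fun x _ y _ h => Nat.eq_of_mul_eq_mul_left hd.1 h]
      push_cast
      simp only [mul_inv]
      rw [← mul_sum]
      exact mul_le_mul_of_nonneg_left hh (by positivity)
  · rw [← sum_mul, sq]
    exact mul_le_mul_of_nonneg_right hh (by linarith [ThreePrimes.one_le_logOne Q])

/-- The sum over the moduli of the inducing characters. -/
theorem sum_inducing_le (Q y : ℕ) :
    ∑ q ∈ Icc 1 Q, (∑ z ∈ inducing q, ‖charSum z.2 Λ y‖) / q.totient ≤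
      logOne Q ^ 2 * ∑ d ∈ Icc 2 Q, 1 / (d.totient : ℝ) *
        ∑ χ ∈ primChars d, ‖charSum χ Λ y‖ := by
  obtain ⟨S, hS⟩ : ∃ S : ℕ → ℝ, S = fun d => ∑ χ ∈ primChars d, ‖charSum χ Λ y‖ := ⟨_, rfl⟩
  have hS0 : ∀ d, 0 ≤ S d := fun d => hS ▸ sum_nonneg fun χ _ => norm_nonneg _
  have e : ∀ q ∈ Icc 1 Q, (∑ z ∈ inducing q, ‖charSum z.2 Λ y‖) / q.totient =
      ∑ d ∈ Icc 2 Q, if d ∣ q then S d / q.totient else 0 := by
    intro q hq
    rw [mem_Icc] at hq
    rw [inducing, sum_sigma, sum_div, ← sum_filter, hS]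
    refine sum_congr ?_ fun d _ => rfl
    ext d
    simp only [mem_filter, mem_Icc, Nat.mem_divisors]
    constructor
    · rintro ⟨⟨h1, -⟩, h2⟩
      exact ⟨⟨h2, (Nat.le_of_dvd hq.1 h1).trans hq.2⟩, h1⟩
    · rintro ⟨⟨h2, -⟩, h1⟩
      exact ⟨⟨h1, by omega⟩, h2⟩
  rw [sum_congr rfl e, sum_comm, mul_sum]
  simp only [hS]
  refine sum_le_sum fun d hd => ?_
  rw [mem_Icc] at hd
  rw [show (∑ χ ∈ primChars d, ‖charSum χ Λ y‖) = S d by rw [hS], ← sum_filter]
  have hd0 : 0 < d := by omega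
  refine (sum_le_sum_of_subset_of_nonneg (t := (Icc 1 Q).image (d * ·)) ?_
    fun q _ _ => div_nonneg (hS0 d) (Nat.cast_nonneg _)).trans ?_
  · intro q hq
    rw [mem_filter, mem_Icc] at hq
    obtain ⟨j, rfl⟩ := hq.2
    refine mem_image.2 ⟨j, mem_Icc.2 ⟨Nat.pos_of_mul_pos_left hq.1.1, ?_⟩, rfl⟩
    exact (Nat.le_mul_of_pos_left j hd0).trans hq.1.2
  rw [sum_image fun x _ y _ h => Nat.eq_of_mul_eq_mul_left hd0 h]
  refine (sum_le_sum (g := fun k : ℕ => 1 / (d.totient : ℝ) * S d * (1 / (k.totient : ℝ)))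
    fun k hk => ?_).trans ?_
  · rw [mem_Icc] at hk
    rw [one_div_mul_eq_div, mul_one_div, div_div]
    refine div_le_div_of_nonneg_left (hS0 d) ?_ ?_
    · exact mul_pos (Nat.cast_pos.2 (Nat.totient_pos.2 hd0))
        (Nat.cast_pos.2 (Nat.totient_pos.2 hk.1))
    · exact_mod_cast Nat.totient_super_multiplicative d k
  · rw [← mul_sum, mul_comm]
    exact mul_le_mul_of_nonneg_right (sum_inv_totient_le Q) (mul_nonneg (by positivity) (hS0 d))

/-- **All moduli at one height.** -/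
theorem sum_classBound_le (Q y : ℕ) :
    ∑ q ∈ Icc 1 Q, classBound y q ≤ 4 * (Q : ℝ) ^ 2 * logOne y ^ 2 + logOne Q ^ 2 *
      (|∑ n ∈ Ioc 0 y, Λ n - y| +
        ∑ d ∈ Icc 2 Q, 1 / (d.totient : ℝ) * ∑ χ ∈ primChars d, ‖charSum χ Λ y‖) := by
  simp only [classBound, sum_add_distrib, add_div, mul_add]
  refine add_le_add ?_ (add_le_add ?_ (sum_inducing_le Q y))
  · rw [← sum_mul]
    refine mul_le_mul_of_nonneg_right ((sum_le_card_nsmul _ _ (4 * (Q : ℝ)) fun q hq => ?_).trans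
      (le_of_eq ?_)) (sq_nonneg _)
    · rw [mem_Icc] at hq
      exact mul_le_mul_of_nonneg_left (Nat.cast_le.2 hq.2) (by norm_num)
    · rw [Nat.card_Icc, Nat.add_sub_cancel, nsmul_eq_mul]
      ring
  · rw [mul_comm (logOne Q ^ 2)]
    refine le_trans (le_of_eq ?_)
      (mul_le_mul_of_nonneg_left (sum_inv_totient_le Q) (abs_nonneg _))
    rw [mul_sum]
    exact sum_congr rfl fun q _ => by rw [mul_one_div]

end FA.BombieriVinogradov
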